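import Mathlib

/-!
# Sophie Germain's theorem and Case I of FLT for `p = 5, 7, 11, 13`
-/

set_option autoImplicit false

namespace Fermat.Agent.Lib.Kummer

open Finset

/-- the cofactor `(y^p + z^p)/(y+z)` -/
def sgPhi {R : Type*} [CommRing R] (p : ℕ) (y z : R) : R :=
  ∑ i ∈ range p, y ^ i * (-z) ^ (p - 1 - i)

theorem sgPhi_mul {R : Type*} [CommRing R] {p : ℕ} (hp : Odd p) (y z : R) :
    (y + z) * sgPhi p y z = y ^ p + z ^ p := by
  have h := geom_sum₂_mul y (-z) p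
  rw [hp.neg_pow] at h
  rw [sgPhi, mul_comm]
  linear_combination h

theorem map_sgPhi {R S : Type*} [CommRing R] [CommRing S] (f : R →+* S) (p : ℕ) (y z : R) :
    f (sgPhi p y z) = sgPhi p (f y) (f z) := by
  simp [sgPhi, map_sum]

theorem sgPhi_of_add_eq_zero {R : Type*} [CommRing R] (p : ℕ) (y z : R) (h : y + z = 0) :
    sgPhi p y z = p * y ^ (p - 1) := by
  have : -z = y := by linear_combination -h
  rw [sgPhi, this, geom_sum₂_self]

/-- first step of Sophie Germain's theorem -/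
theorem sg_exists_pow {p : ℕ} (hpp : p.Prime) (hp : Odd p) (x y z : ℤ)
    (h : x ^ p + y ^ p + z ^ p = 0) (hyz : IsCoprime y z) (hx : ¬ (p : ℤ) ∣ x) :
    (∃ a, y + z = a ^ p) ∧ ∃ α, sgPhi p y z = α ^ p := by
  have hmul : (y + z) * sgPhi p y z = (-x) ^ p := by
    rw [sgPhi_mul hp, hp.neg_pow]; linear_combination h
  have hpZ : Prime (p : ℤ) := Nat.prime_iff_prime_int.mp hpp
  have hcop : IsCoprime (y + z) (sgPhi p y z) := by
    apply isCoprime_of_prime_dvd
    · rintro ⟨h1, -⟩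
      rw [h1, zero_mul] at hmul
      have : -x = 0 := by
        by_contra hne
        exact pow_ne_zero p hne hmul.symm
      apply hx
      have hx0 : x = 0 := by linarith
      rw [hx0]; exact dvd_zero _
    · intro r hr h1 h2
      have h1' : r ∣ y - (-z) := by rwa [sub_neg_eq_add]
      have h3 := (dvd_geom_sum₂_iff_of_dvd_sub (n := p) h1').mp h2
      rcases hr.dvd_or_dvd h3 with h4 | h4
      · -- r ∣ p
        have hass : Associated r (p : ℤ) := hr.associated_of_dvd hpZ h4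
        have h5 : (p : ℤ) ∣ (-x) ^ p := by
          rw [← hmul]
          exact (hass.symm.dvd.trans h1).mul_right _
        have h6 := hpZ.dvd_of_dvd_pow h5
        exact hx ((dvd_neg).mp h6)
      · have h5 : r ∣ -z := hr.dvd_of_dvd_pow h4
        have h6 : r ∣ z := (dvd_neg).mp h5
        have h7 : r ∣ y := by
          have := dvd_sub h1 h6
          simpa using this
        exact hr.not_isUnit (hyz.isUnit_of_dvd' h7 h6)
  exact Int.eq_pow_of_mul_eq_pow_odd hcop hp hmul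

/-- the core of Sophie Germain's theorem: the case `q ∣ x` -/
theorem sg_core {p q : ℕ} (hpp : p.Prime) (hqq : q.Prime) (hp : Odd p)
    (h1 : ∀ x y z : ZMod q, x ^ p + y ^ p + z ^ p = 0 → x = 0 ∨ y = 0 ∨ z = 0)
    (h2 : ∀ x : ZMod q, x ^ p ≠ (p : ZMod q))
    (x y z : ℤ) (hxy : IsCoprime x y) (hyz : IsCoprime y z) (hzx : IsCoprime z x)
    (hpx : ¬ (p : ℤ) ∣ x) (hpy : ¬ (p : ℤ) ∣ y) (hpz : ¬ (p : ℤ) ∣ z)
    (h : x ^ p + y ^ p + z ^ p = 0) (hq : ((x : ℤ) : ZMod q) = 0) : False := by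
  have : Fact q.Prime := ⟨hqq⟩
  have hp0 : p ≠ 0 := hpp.ne_zero
  obtain ⟨⟨a, ha⟩, ⟨α, hα⟩⟩ := sg_exists_pow hpp hp x y z h hyz hpx
  obtain ⟨⟨b, hb⟩, -⟩ := sg_exists_pow hpp hp y z x (by linear_combination h) hzx hpy
  obtain ⟨⟨c, hc⟩, ⟨γ, hγ⟩⟩ := sg_exists_pow hpp hp z x y (by linear_combination h) hxy hpz
  have hqZ : Prime (q : ℤ) := Nat.prime_iff_prime_int.mp hqq
  have hqx : (q : ℤ) ∣ x := (ZMod.intCast_zmod_eq_zero_iff_dvd x q).mp hq
  have hy0 : ((y : ℤ) : ZMod q) ≠ 0 := by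
    intro h0
    have := (ZMod.intCast_zmod_eq_zero_iff_dvd y q).mp h0
    exact hqZ.not_isUnit (hxy.isUnit_of_dvd' hqx this)
  have hz0 : ((z : ℤ) : ZMod q) ≠ 0 := by
    intro h0
    have := (ZMod.intCast_zmod_eq_zero_iff_dvd z q).mp h0
    exact hqZ.not_isUnit (hzx.isUnit_of_dvd' this hqx)
  -- cast everything
  have ha' : (y : ZMod q) + z = (a : ZMod q) ^ p := by exact_mod_cast congrArg (Int.cast : ℤ → ZMod q) ha
  have hb' : (z : ZMod q) + x = (b : ZMod q) ^ p := by exact_mod_cast congrArg (Int.cast : ℤ → ZMod q) hb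
  have hc' : (x : ZMod q) + y = (c : ZMod q) ^ p := by exact_mod_cast congrArg (Int.cast : ℤ → ZMod q) hc
  have hα' : sgPhi p (y : ZMod q) (z : ZMod q) = (α : ZMod q) ^ p := by
    have := congrArg (Int.castRingHom (ZMod q)) hα
    rw [map_sgPhi, map_pow] at this
    simpa using this
  have hγ' : sgPhi p (x : ZMod q) (y : ZMod q) = (γ : ZMod q) ^ p := by
    have := congrArg (Int.castRingHom (ZMod q)) hγ
    rw [map_sgPhi, map_pow] at this
    simpa using this
  have hsum : (b : ZMod q) ^ p + (c : ZMod q) ^ p + (-(a : ZMod q)) ^ p = 0 := by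
    rw [hp.neg_pow, ← ha', ← hb', ← hc', hq]; ring
  have hb0 : (b : ZMod q) ≠ 0 := by
    intro h0
    rw [h0, zero_pow hp0, hq, add_zero] at hb'
    exact hz0 hb'
  have hc0 : (c : ZMod q) ≠ 0 := by
    intro h0
    rw [h0, zero_pow hp0, hq, zero_add] at hc'
    exact hy0 hc'
  have ha0 : (a : ZMod q) = 0 := by
    rcases h1 _ _ _ hsum with h3 | h3 | h3
    · exact absurd h3 hb0
    · exact absurd h3 hc0
    · exact neg_eq_zero.mp h3
  rw [ha0, zero_pow hp0] at ha'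
  rw [sgPhi_of_add_eq_zero p _ _ ha'] at hα'
  have hγ2 : (γ : ZMod q) ^ p = (y : ZMod q) ^ (p - 1) := by
    have h3 := sgPhi_mul hp (x : ZMod q) (y : ZMod q)
    rw [hγ', hq, zero_add, zero_pow hp0, zero_add] at h3
    have h4 : (y : ZMod q) ^ p = y * y ^ (p - 1) := by
      rw [← pow_succ', Nat.sub_add_cancel hpp.one_le]
    rw [h4] at h3
    exact mul_left_cancel₀ hy0 h3
  have hγ0 : (γ : ZMod q) ≠ 0 := by
    intro h0
    rw [h0, zero_pow hp0] at hγ2
    exact pow_ne_zero _ hy0 hγ2.symm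
  apply h2 ((α : ZMod q) / γ)
  rw [div_pow, ← hα', hγ2, mul_div_assoc, div_self (pow_ne_zero _ hy0), mul_one]

/-- **Sophie Germain's theorem**. -/
theorem sophie_germain {p q : ℕ} (hpp : p.Prime) (hqq : q.Prime) (hp : Odd p)
    (h1 : ∀ x y z : ZMod q, x ^ p + y ^ p + z ^ p = 0 → x = 0 ∨ y = 0 ∨ z = 0)
    (h2 : ∀ x : ZMod q, x ^ p ≠ (p : ZMod q))
    (x y z : ℤ) (hxy : IsCoprime x y) (hyz : IsCoprime y z) (hzx : IsCoprime z x)
    (hpx : ¬ (p : ℤ) ∣ x) (hpy : ¬ (p : ℤ) ∣ y) (hpz : ¬ (p : ℤ) ∣ z) :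
    x ^ p + y ^ p + z ^ p ≠ 0 := by
  intro h
  have hc : (x : ZMod q) ^ p + (y : ZMod q) ^ p + (z : ZMod q) ^ p = 0 := by
    exact_mod_cast congrArg (Int.cast : ℤ → ZMod q) h
  rcases h1 _ _ _ hc with h3 | h3 | h3
  · exact sg_core hpp hqq hp h1 h2 x y z hxy hyz hzx hpx hpy hpz h h3
  · exact sg_core hpp hqq hp h1 h2 y z x hyz hzx hxy hpy hpz hpx (by linear_combination h) h3
  · exact sg_core hpp hqq hp h1 h2 z x y hzx hxy hyz hpz hpx hpy (by linear_combination h) h3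

/-- Case I from Sophie Germain's criterion, without coprimality assumptions. -/
theorem caseI_of_sophie_germain {p q : ℕ} (hpp : p.Prime) (hqq : q.Prime) (hp : Odd p)
    (h1 : ∀ x y z : ZMod q, x ^ p + y ^ p + z ^ p = 0 → x = 0 ∨ y = 0 ∨ z = 0)
    (h2 : ∀ x : ZMod q, x ^ p ≠ (p : ZMod q))
    (a b c : ℤ) (h : ¬ (p : ℤ) ∣ a * b * c) : a ^ p + b ^ p ≠ c ^ p := by
  intro heq
  have hp0 : p ≠ 0 := hpp.ne_zero
  have ha0 : a ≠ 0 := by
    rintro rfl
    exact h (by simp)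
  have hd : 0 < Int.gcd a b := Int.gcd_pos_of_ne_zero_left _ ha0
  obtain ⟨a', b', hg, ha, hb⟩ := Int.exists_gcd_one hd
  set d : ℤ := (Int.gcd a b : ℤ) with hd_def
  have hd0 : d ≠ 0 := by
    have : (0 : ℤ) < d := by rw [hd_def]; exact_mod_cast hd
    exact this.ne'
  have hdc : d ∣ c := by
    rw [← Int.pow_dvd_pow_iff hp0, ← heq, ha, hb, mul_pow, mul_pow]
    exact dvd_add (dvd_mul_left _ _) (dvd_mul_left _ _)
  obtain ⟨c', hc⟩ := hdc
  have heq' : a' ^ p + b' ^ p = c' ^ p := by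
    have h3 : d ^ p * (a' ^ p + b' ^ p) = d ^ p * c' ^ p := by
      have := heq
      rw [ha, hb, hc] at this
      linear_combination this
    exact mul_left_cancel₀ (pow_ne_zero _ hd0) h3
  have hab : IsCoprime a' b' := Int.isCoprime_iff_gcd_eq_one.mpr hg
  have hp1 : 0 < p := hpp.pos
  have hbc : IsCoprime b' c' := by
    rw [← IsCoprime.pow_right_iff hp1, ← heq']
    have h4 : IsCoprime b' (a' ^ p) := (hab.symm.pow_right)
    have h5 : b' ^ p = b' * b' ^ (p - 1) := by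
      rw [← pow_succ', Nat.sub_add_cancel hpp.one_le]
    rw [h5]
    exact h4.add_mul_left_right _
  have hca : IsCoprime c' a' := by
    rw [← IsCoprime.pow_left_iff hp1, ← heq']
    have h4 : IsCoprime (b' ^ p) a' := (hab.symm.pow_left)
    have h5 : a' ^ p = a' * a' ^ (p - 1) := by
      rw [← pow_succ', Nat.sub_add_cancel hpp.one_le]
    rw [h5, add_comm]
    exact h4.add_mul_left_left _
  have hpa : ¬ (p : ℤ) ∣ a' := fun h3 => h (by
    rw [ha]; exact ((h3.mul_right _).mul_right _).mul_right _)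
  have hpb : ¬ (p : ℤ) ∣ b' := fun h3 => h (by
    rw [hb]; exact ((h3.mul_right _).mul_left _).mul_right _)
  have hpc : ¬ (p : ℤ) ∣ c' := fun h3 => h (by
    rw [hc]; exact ((h3.mul_left _).mul_left _))
  refine sophie_germain hpp hqq hp h1 h2 a' b' (-c') hab hbc.neg_right hca.neg_left hpa hpb
    (fun h3 => hpc ((dvd_neg).mp h3)) ?_
  rw [hp.neg_pow]
  linear_combination heq'

/-! ### The four instances -/

theorem sg_three_values {q : ℕ} {p : ℕ} (S : Finset (ZMod q))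
    (hS : ∀ x : ZMod q, x ≠ 0 → x ^ p ∈ S)
    (hsum : ∀ u ∈ S, ∀ v ∈ S, ∀ w ∈ S, u + v + w ≠ 0) :
    ∀ x y z : ZMod q, x ^ p + y ^ p + z ^ p = 0 → x = 0 ∨ y = 0 ∨ z = 0 := by
  intro x y z h
  by_contra hne
  rw [not_or, not_or] at hne
  exact hsum _ (hS x hne.1) _ (hS y hne.2.1) _ (hS z hne.2.2) h

theorem caseI_five (a b c : ℤ) (h : ¬ (5 : ℤ) ∣ a * b * c) : a ^ 5 + b ^ 5 ≠ c ^ 5 :=
  caseI_of_sophie_germain (p := 5) (q := 11) (by norm_num) (by norm_num) (by decide)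
    (sg_three_values {1, -1} (by decide) (by decide)) (by decide) a b c h

theorem caseI_seven (a b c : ℤ) (h : ¬ (7 : ℤ) ∣ a * b * c) : a ^ 7 + b ^ 7 ≠ c ^ 7 :=
  caseI_of_sophie_germain (p := 7) (q := 29) (by norm_num) (by norm_num) (by decide)
    (sg_three_values {1, -1, 12, -12} (by decide) (by decide)) (by decide) a b c h

theorem caseI_eleven (a b c : ℤ) (h : ¬ (11 : ℤ) ∣ a * b * c) : a ^ 11 + b ^ 11 ≠ c ^ 11 :=
  caseI_of_sophie_germain (p := 11) (q := 23) (by norm_num) (by norm_num) (by decide)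
    (sg_three_values {1, -1} (by decide) (by decide)) (by decide) a b c h

set_option maxRecDepth 100000 in
theorem caseI_thirteen (a b c : ℤ) (h : ¬ (13 : ℤ) ∣ a * b * c) : a ^ 13 + b ^ 13 ≠ c ^ 13 :=
  caseI_of_sophie_germain (p := 13) (q := 53) (by norm_num) (by norm_num) (by decide)
    (sg_three_values {1, -1, 23, -23} (by decide) (by decide)) (by decide) a b c h

end Fermat.Agent.Lib.Kummer
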