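import Fermat.Agent.Lib.Kummer.CaseIIAbs

/-!
# The second case of Fermat's Last Theorem for `p` with `𝓞 (ℚ(ζ_p))` principal + Kummer's lemma
-/

namespace Fermat.Agent.Lib.Kummer

open NumberField IsCyclotomicExtension.Rat

/-- Every algebraic integer of `ℚ(ζ_p)` is congruent to a rational integer modulo `ζ - 1`. -/
lemma exists_int_sub_dvd {p : ℕ} [Fact p.Prime] {K : Type} [Field K] [NumberField K]
    [IsCyclotomicExtension {p} ℚ K] {ζ : K} (hζ : IsPrimitiveRoot ζ p) (t : 𝓞 K) :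
    ∃ n : ℤ, (hζ.toInteger - 1) ∣ t - (n : 𝓞 K) := by
  have htop : t ∈ Algebra.adjoin ℤ {hζ.toInteger} := by
    rw [adjoin_singleton_eq_top hζ]; trivial
  induction htop using Algebra.adjoin_induction with
  | mem x hx =>
    rw [Set.mem_singleton_iff] at hx
    exact ⟨1, by rw [hx]; simp⟩
  | algebraMap r => exact ⟨r, by simp⟩
  | add x y _ _ hx hy =>
    obtain ⟨n, hn⟩ := hx
    obtain ⟨m, hm⟩ := hy
    refine ⟨n + m, ?_⟩
    have : x + y - ((n + m : ℤ) : 𝓞 K) = (x - n) + (y - m) := by push_cast; ring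
    rw [this]
    exact dvd_add hn hm
  | mul x y _ _ hx hy =>
    obtain ⟨n, hn⟩ := hx
    obtain ⟨m, hm⟩ := hy
    refine ⟨n * m, ?_⟩
    have : x * y - ((n * m : ℤ) : 𝓞 K) = (x - n) * y + n * (y - m) := by push_cast; ring
    rw [this]
    exact dvd_add (Dvd.dvd.mul_right hn _) (Dvd.dvd.mul_left hm _)

theorem caseII {p : ℕ} [Fact p.Prime] (hp : p ≠ 2) {K : Type} [Field K] [NumberField K]
    [IsCyclotomicExtension {p} ℚ K] [IsPrincipalIdealRing (𝓞 K)]
    (hK : ∀ u : (𝓞 K)ˣ, (∃ n : ℤ, (p : 𝓞 K) ∣ (u : 𝓞 K) - n) → ∃ v : (𝓞 K)ˣ, u = v ^ p)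
    {a b c : ℤ} (hprod : a * b * c ≠ 0) (hgcd : IsCoprime a b) (hdvd : (p : ℤ) ∣ a * b * c) :
    a ^ p + b ^ p ≠ c ^ p := by
  have hζ := IsCyclotomicExtension.zeta_spec p ℚ K
  have D : CycData (𝓞 K) p hζ.toInteger :=
    { pp := Fact.out
      p2 := hp
      prim := hζ.toInteger_isPrimitiveRoot
      lam_prime := hζ.zeta_sub_one_prime'
      res := exists_int_sub_dvd hζ
      assoc := associated_zeta_sub_one_pow_prime p hζ
      int_dvd := fun n h => (zeta_sub_one_dvd_intCast_iff' p hζ).mp h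
      kummer := hK }
  exact D.int_ne hprod hgcd hdvd

end Fermat.Agent.Lib.Kummer
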