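import Mathlib

/-!
# Kummer's descent for the second case of Fermat's Last Theorem (abstract form)

We work in a principal ideal domain `O` with a primitive `p`-th root of unity `ζ`,
such that `ζ - 1` is prime with residue field `𝔽_p`, `p ∼ (ζ - 1)^(p-1)`, and such that
Kummer's lemma holds.
-/

namespace Fermat.Agent.Lib.Kummer

open Polynomial Finset

/-- The data needed to run Kummer's descent. -/
structure CycData (O : Type*) [CommRing O] (p : ℕ) (ζ : O) : Prop where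
  pp : p.Prime
  p2 : p ≠ 2
  prim : IsPrimitiveRoot ζ p
  lam_prime : Prime (ζ - 1)
  res : ∀ t : O, ∃ n : ℤ, (ζ - 1) ∣ t - (n : O)
  assoc : Associated ((ζ - 1) ^ (p - 1)) (p : O)
  int_dvd : ∀ n : ℤ, (ζ - 1) ∣ (n : O) → (p : ℤ) ∣ n
  kummer : ∀ u : Oˣ, (∃ n : ℤ, (p : O) ∣ (u : O) - (n : O)) → ∃ v : Oˣ, u = v ^ p

namespace CycData

variable {O : Type*} [CommRing O] {p : ℕ} {ζ : O}

lemma three_le (D : CycData O p ζ) : 3 ≤ p := by
  have := D.pp.two_le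
  have := D.p2
  omega

lemma odd (D : CycData O p ζ) : Odd p := D.pp.odd_of_ne_two D.p2

lemma lam_dvd_p (D : CycData O p ζ) : (ζ - 1) ∣ (p : O) := by
  refine dvd_trans ?_ D.assoc.dvd
  exact dvd_pow_self _ (by have := D.three_le; omega)

lemma p_dvd_lam_pow (D : CycData O p ζ) : (p : O) ∣ (ζ - 1) ^ p := by
  refine dvd_trans D.assoc.symm.dvd ?_
  exact pow_dvd_pow _ (by omega)

lemma int_dvd_iff (D : CycData O p ζ) (n : ℤ) : (ζ - 1) ∣ (n : O) ↔ (p : ℤ) ∣ n := by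
  refine ⟨D.int_dvd n, ?_⟩
  rintro ⟨k, rfl⟩
  push_cast
  exact Dvd.dvd.mul_right D.lam_dvd_p _

/-- `t ^ p` is congruent to an integer modulo `p`; that integer is prime to `p` if `λ ∤ t`. -/
lemma pow_congr_int (D : CycData O p ζ) (t : O) :
    ∃ n : ℤ, (p : O) ∣ t ^ p - (n : O) ∧ ((p : ℤ) ∣ n → (ζ - 1) ∣ t) := by
  obtain ⟨n, s, hs⟩ := D.res t
  have ht : t = (n : O) + (ζ - 1) * s := by rw [← hs]; ring
  obtain ⟨r, hr⟩ := exists_add_pow_prime_eq D.pp (n : O) ((ζ - 1) * s)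
  refine ⟨n ^ p, ?_, ?_⟩
  · obtain ⟨w, hw⟩ := D.p_dvd_lam_pow
    refine ⟨w * s ^ p + (n : O) * ((ζ - 1) * s) * r, ?_⟩
    rw [ht, hr, mul_pow, hw]
    push_cast
    ring
  · intro h
    have h1 : (p : ℤ) ∣ n := (Nat.prime_iff_prime_int.mp D.pp).dvd_of_dvd_pow h
    rw [ht]
    exact dvd_add ((D.int_dvd_iff n).mpr h1) (Dvd.intro _ rfl)

lemma lam_dvd_geom_sub (ζ : O) (j : ℕ) : (ζ - 1) ∣ (∑ i ∈ range j, ζ ^ i) - (j : O) := by
  induction j with
  | zero => simp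
  | succ j ih =>
    rw [Finset.sum_range_succ]
    have h : (ζ - 1) ∣ ζ ^ j - 1 := by simpa using sub_dvd_pow_sub_pow ζ 1 j
    have : (∑ i ∈ range j, ζ ^ i) + ζ ^ j - ((j + 1 : ℕ) : O)
        = ((∑ i ∈ range j, ζ ^ i) - (j : O)) + (ζ ^ j - 1) := by push_cast; ring
    rw [this]
    exact dvd_add ih h

/-- Some twist `x + ζ^j y` is divisible by `λ²`. -/
lemma exists_sq_dvd (D : CycData O p ζ) {x y : O} (hxy : (ζ - 1) ∣ x + y) (hy : ¬ (ζ - 1) ∣ y) :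
    ∃ j : ℕ, (ζ - 1) ^ 2 ∣ x + ζ ^ j * y := by
  obtain ⟨a₁, ha₁⟩ := hxy
  obtain ⟨n, hn⟩ := D.res a₁
  obtain ⟨s, hs⟩ := D.res y
  have hps : ¬ (p : ℤ) ∣ s := by
    intro h
    apply hy
    have := (D.int_dvd_iff s).mpr h
    have h2 := dvd_add hs this
    simpa using h2
  obtain ⟨α, β, hαβ⟩ := ((Nat.prime_iff_prime_int.mp D.pp).coprime_iff_not_dvd).mpr hps
  have hp0 : (0 : ℤ) < p := by exact_mod_cast D.pp.pos
  set j : ℕ := ((-n * β) % p).toNat with hj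
  have hjc : (j : ℤ) = (-n * β) % p := Int.toNat_of_nonneg (Int.emod_nonneg _ hp0.ne')
  have hdvd : (p : ℤ) ∣ n + j * s := by
    have h1 : (p : ℤ) ∣ (-n * β) - (j : ℤ) := by
      rw [hjc]; exact Int.dvd_self_sub_emod
    obtain ⟨k, hk⟩ := h1
    refine ⟨n * α - k * s, ?_⟩
    have : (j : ℤ) = -n * β - p * k := by linarith
    rw [this]
    linear_combination (-n) * hαβ
  have hdvd' : (ζ - 1) ∣ ((n + j * s : ℤ) : O) := (D.int_dvd_iff _).mpr hdvd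
  refine ⟨j, ?_⟩
  have hg := mul_geom_sum ζ j
  have hgj := lam_dvd_geom_sub ζ j
  set g := ∑ i ∈ range j, ζ ^ i with hgdef
  have key : x + ζ ^ j * y = (ζ - 1) * (a₁ + g * y) := by
    linear_combination ha₁ - y * hg
  rw [key, pow_two]
  apply mul_dvd_mul_left
  have : a₁ + g * y = (a₁ - n) + (g - j) * y + j * (y - s) + ((n + j * s : ℤ) : O) := by
    push_cast; ring
  rw [this]
  exact dvd_add (dvd_add (dvd_add hn (Dvd.dvd.mul_right hgj _)) (Dvd.dvd.mul_left hs _)) hdvd'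

section Domain

set_option linter.unusedSectionVars false

variable {O : Type*} [CommRing O] [IsDomain O] {p : ℕ} {ζ : O}

lemma one_mem (D : CycData O p ζ) : (1 : O) ∈ nthRootsFinset p (1 : O) := by
  rw [mem_nthRootsFinset D.pp.pos]; simp

lemma zeta_mem (D : CycData O p ζ) : ζ ∈ nthRootsFinset p (1 : O) := by
  rw [mem_nthRootsFinset D.pp.pos]; exact D.prim.pow_eq_one

lemma zeta_pow_mem (D : CycData O p ζ) (j : ℕ) : ζ ^ j ∈ nthRootsFinset p (1 : O) := by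
  rw [mem_nthRootsFinset D.pp.pos, ← pow_mul, mul_comm, pow_mul, D.prim.pow_eq_one, one_pow]

lemma zeta_ne_one (D : CycData O p ζ) : ζ ≠ 1 := D.prim.ne_one D.pp.one_lt

lemma zeta_mul_inv (D : CycData O p ζ) : ζ * ζ ^ (p - 1) = 1 := by
  rw [← pow_succ', Nat.sub_add_cancel D.pp.one_le, D.prim.pow_eq_one]

lemma zeta_inv_ne_one (D : CycData O p ζ) : ζ ^ (p - 1) ≠ 1 := by
  intro h
  have := D.zeta_mul_inv
  rw [h, mul_one] at this
  exact D.zeta_ne_one this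

lemma zeta_ne_inv (D : CycData O p ζ) : ζ ≠ ζ ^ (p - 1) := by
  intro h
  have h3 := D.three_le
  have := D.prim.pow_inj (i := 1) (j := p - 1) (by omega) (by omega) (by simpa using h)
  omega

lemma one_add_zeta_isUnit (D : CycData O p ζ) : IsUnit (1 + ζ) := by
  have h3 := D.three_le
  have := D.prim.geom_sum_isUnit (j := 2) D.pp.two_le
    ((Nat.coprime_primes Nat.prime_two D.pp).mpr (Ne.symm D.p2))
  simpa [Finset.sum_range_succ] using this

lemma zeta_isUnit (D : CycData O p ζ) : IsUnit ζ := D.prim.isUnit D.pp.ne_zero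

/-- Distinct roots of unity differ by a unit times `λ`. -/
lemma exists_unit_sub (D : CycData O p ζ) {μ μ' : O} (h : μ ∈ nthRootsFinset p (1 : O))
    (h' : μ' ∈ nthRootsFinset p (1 : O)) (hne : μ ≠ μ') : ∃ w : Oˣ, μ - μ' = (ζ - 1) * w := by
  obtain ⟨w, hw⟩ := D.prim.nthRootsFinset_pairwise_associated_sub_one_sub_of_prime D.pp h h' hne
  exact ⟨w, hw.symm⟩

lemma lam_ne_zero (D : CycData O p ζ) : ζ - 1 ≠ 0 := D.lam_prime.ne_zero

/-- pairwise coprimality of the quotients `(x + μ y)/λ`. -/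
lemma isCoprime_quot (D : CycData O p ζ) {x y : O} (hxy : IsCoprime x y) {μ μ' a a' : O}
    (h : μ ∈ nthRootsFinset p (1 : O)) (h' : μ' ∈ nthRootsFinset p (1 : O)) (hne : μ ≠ μ')
    (ha : x + μ * y = (ζ - 1) * a) (ha' : x + μ' * y = (ζ - 1) * a') : IsCoprime a a' := by
  obtain ⟨w, hw⟩ := D.exists_unit_sub h h' hne
  obtain ⟨r, s, hrs⟩ := hxy
  have e1 : a - a' = w * y := by
    apply mul_left_cancel₀ D.lam_ne_zero
    linear_combination ha' - ha + y * hw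
  have e2 : μ' * a - μ * a' = - (w * x) := by
    apply mul_left_cancel₀ D.lam_ne_zero
    linear_combination μ * ha' - μ' * ha - x * hw
  refine ⟨(↑w⁻¹ : O) * (s - r * μ'), (↑w⁻¹ : O) * (r * μ - s), ?_⟩
  have hw1 : (↑w⁻¹ : O) * (w : O) = 1 := by simp
  linear_combination (↑w⁻¹ : O) * s * e1 - (↑w⁻¹ : O) * r * e2 + (r * x + s * y) * hw1 + hrs

end Domain

section PID

set_option linter.unusedSectionVars false

variable {O : Type*} [CommRing O] [IsDomain O] [IsPrincipalIdealRing O] {p : ℕ} {ζ : O}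

/-- A solution of the generalised Fermat equation with `λ`-exponent `m + 1`. -/
def Sol (O : Type*) [CommRing O] (p : ℕ) (ζ : O) (m : ℕ) : Prop :=
  ∃ x y z : O, ∃ ε : Oˣ, IsCoprime x y ∧ ¬ (ζ - 1) ∣ y ∧ ¬ (ζ - 1) ∣ z ∧
    x ^ p + y ^ p = ε * ((ζ - 1) ^ (m + 1) * z) ^ p

/-- The quotients `a μ = (x + μ y)/λ`: existence and all their properties. -/
lemma exists_quot (D : CycData O p ζ) {x y z : O} {ε : Oˣ} {m : ℕ}
    (hy : ¬ (ζ - 1) ∣ y) (hsq : (ζ - 1) ^ 2 ∣ x + y)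
    (heq : x ^ p + y ^ p = ε * ((ζ - 1) ^ (m + 1) * z) ^ p) :
    ∃ a : O → O, (∀ μ ∈ nthRootsFinset p (1 : O), x + μ * y = (ζ - 1) * a μ) ∧
      (∀ μ ∈ nthRootsFinset p (1 : O), μ ≠ 1 → ¬ (ζ - 1) ∣ a μ) ∧ (ζ - 1) ∣ a 1 ∧
      (∏ μ ∈ nthRootsFinset p (1 : O), a μ = ε * ((ζ - 1) ^ m * z) ^ p) := by
  obtain ⟨t, ht⟩ := hsq
  have hdiv : ∀ μ ∈ nthRootsFinset p (1 : O), ∃ a, x + μ * y = (ζ - 1) * a := by
    intro μ hμ
    obtain ⟨c, hc⟩ := D.prim.sub_one_dvd_sub D.pp hμ D.one_mem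
    exact ⟨(ζ - 1) * t + c * y, by linear_combination ht + y * hc⟩
  choose! a ha using hdiv
  refine ⟨a, ha, ?_, ?_, ?_⟩
  · intro μ hμ hne hd
    obtain ⟨w, hw⟩ := D.exists_unit_sub hμ D.one_mem hne
    have e : a μ = (ζ - 1) * t + w * y := by
      apply mul_left_cancel₀ D.lam_ne_zero
      linear_combination ht + y * hw - ha μ hμ
    rw [e, dvd_add_right (Dvd.intro _ rfl)] at hd
    exact hy (Units.dvd_mul_left.mp hd)
  · refine ⟨t, ?_⟩
    apply mul_left_cancel₀ D.lam_ne_zero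
    linear_combination ht - ha 1 D.one_mem
  · have h1 := D.prim.pow_add_pow_eq_prod_add_mul x y D.odd
    rw [Finset.prod_congr rfl ha, Finset.prod_mul_distrib, Finset.prod_const,
      D.prim.card_nthRootsFinset, heq] at h1
    apply mul_left_cancel₀ (pow_ne_zero p D.lam_ne_zero)
    have hl : ∀ l : O, (ε : O) * (l ^ (m + 1) * z) ^ p = l ^ p * (ε * (l ^ m * z) ^ p) := by
      intro l; ring
    rw [← h1, hl]


/-- each quotient is a unit times a `p`-th power. -/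
lemma quot_eq_unit_mul_pow (D : CycData O p ζ) {x y w : O} {ε : Oˣ} (hxy : IsCoprime x y)
    {a : O → O} (ha : ∀ μ ∈ nthRootsFinset p (1 : O), x + μ * y = (ζ - 1) * a μ)
    (hprod : ∏ μ ∈ nthRootsFinset p (1 : O), a μ = ε * w ^ p)
    {μ₀ : O} (h₀ : μ₀ ∈ nthRootsFinset p (1 : O)) : ∃ (d : O) (e : Oˣ), a μ₀ = e * d ^ p := by
  classical
  have hcop : IsCoprime (a μ₀) (∏ μ ∈ (nthRootsFinset p (1 : O)).erase μ₀, a μ) := by
    apply IsCoprime.prod_right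
    intro μ hμ
    rw [Finset.mem_erase] at hμ
    exact D.isCoprime_quot hxy h₀ hμ.2 (Ne.symm hμ.1) (ha _ h₀) (ha _ hμ.2)
  have hassoc : Associated (w ^ p) (a μ₀ * ∏ μ ∈ (nthRootsFinset p (1 : O)).erase μ₀, a μ) := by
    rw [Finset.mul_prod_erase _ _ h₀, hprod]
    exact ⟨ε, by ring⟩
  obtain ⟨d, e, he⟩ := exists_associated_pow_of_associated_pow_mul hcop hassoc
  exact ⟨d, e, by rw [← he]; ring⟩

/-- Kummer's lemma applied: a unit `η` with `d₁^p + η d₂^p ≡ 0 mod p`, `λ ∤ d₂` is a `p`-th power. -/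
lemma unit_eq_pow (D : CycData O p ζ) {d₁ d₂ : O} {η : Oˣ} (h2 : ¬ (ζ - 1) ∣ d₂)
    (hdvd : (p : O) ∣ d₁ ^ p + η * d₂ ^ p) : ∃ v : Oˣ, η = v ^ p := by
  apply D.kummer
  obtain ⟨n₁, hn₁, -⟩ := D.pow_congr_int d₁
  obtain ⟨n₂, hn₂, hn₂'⟩ := D.pow_congr_int d₂
  have hpn : ¬ (p : ℤ) ∣ n₂ := fun h => h2 (hn₂' h)
  obtain ⟨α, β, hαβ⟩ := ((Nat.prime_iff_prime_int.mp D.pp).coprime_iff_not_dvd).mpr hpn
  have hαβ' : (α : O) * (p : O) + (β : O) * (n₂ : O) = 1 := by exact_mod_cast congrArg (Int.cast : ℤ → O) hαβ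
  refine ⟨-β * n₁, ?_⟩
  obtain ⟨c₁, hc₁⟩ := hn₁
  obtain ⟨c₂, hc₂⟩ := hn₂
  obtain ⟨c₃, hc₃⟩ := hdvd
  refine ⟨η * α + β * (c₃ - η * c₂ - c₁), ?_⟩
  push_cast
  linear_combination (-(η : O)) * hαβ' + (β : O) * hc₃ - β * η * hc₂ - β * hc₁


/-- The descent step. -/
lemma descent_step (D : CycData O p ζ) {m : ℕ} (h : Sol O p ζ m) : ∃ k < m, Sol O p ζ k := by
  obtain ⟨x, y₀, z, ε, hxy₀, hy₀, hz, heq₀⟩ := h
  have hp0 : p ≠ 0 := D.pp.ne_zero
  have hl : (ζ - 1) ∣ x + y₀ := by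
    obtain ⟨r, hr⟩ := exists_add_pow_prime_eq D.pp x y₀
    apply D.lam_prime.dvd_of_dvd_pow (n := p)
    rw [hr, heq₀]
    refine dvd_add ?_ ?_
    · apply Dvd.dvd.mul_left
      apply dvd_pow _ hp0
      apply Dvd.dvd.mul_right
      exact dvd_pow_self _ (Nat.succ_ne_zero m)
    · rw [mul_assoc, mul_assoc]
      exact Dvd.dvd.mul_right D.lam_dvd_p _
  obtain ⟨j, hj⟩ := D.exists_sq_dvd hl hy₀
  obtain ⟨y, hydef⟩ : ∃ y, y = ζ ^ j * y₀ := ⟨_, rfl⟩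
  rw [← hydef] at hj
  have hxy : IsCoprime x y := by
    rw [hydef]
    exact (isCoprime_mul_unit_left_right (D.zeta_isUnit.pow j) x y₀).mpr hxy₀
  have hy : ¬ (ζ - 1) ∣ y := by
    rw [hydef, (D.zeta_isUnit.pow j).dvd_mul_left]
    exact hy₀
  have heq : x ^ p + y ^ p = ε * ((ζ - 1) ^ (m + 1) * z) ^ p := by
    rw [hydef, mul_pow, ← pow_mul, mul_comm j p, pow_mul, D.prim.pow_eq_one, one_pow, one_mul]
    exact heq₀
  obtain ⟨a, ha, hnd, hd1, hprod⟩ := D.exists_quot hy hj heq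
  obtain ⟨d₀, e₀, h0⟩ := D.quot_eq_unit_mul_pow hxy ha hprod D.one_mem
  obtain ⟨d₁, e₁, h1⟩ := D.quot_eq_unit_mul_pow hxy ha hprod D.zeta_mem
  obtain ⟨d₂, e₂, h2⟩ := D.quot_eq_unit_mul_pow hxy ha hprod (D.zeta_pow_mem (p - 1))
  have hrel : a ζ + ζ * a (ζ ^ (p - 1)) = (1 + ζ) * a 1 := by
    apply mul_left_cancel₀ D.lam_ne_zero
    linear_combination (-(ha ζ D.zeta_mem)) - ζ * ha _ (D.zeta_pow_mem (p - 1))
      + (1 + ζ) * ha 1 D.one_mem + y * D.zeta_mul_inv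
  have hz0 : z ≠ 0 := by
    rintro rfl
    exact hz (dvd_zero _)
  have hprod0 : ∏ μ ∈ nthRootsFinset p (1 : O), a μ ≠ 0 := by
    rw [hprod]
    exact mul_ne_zero ε.ne_zero (pow_ne_zero _ (mul_ne_zero (pow_ne_zero _ D.lam_ne_zero) hz0))
  have ha1 : a 1 ≠ 0 := (Finset.prod_ne_zero_iff.mp hprod0) 1 D.one_mem
  have hd0ne : d₀ ≠ 0 := by
    rintro rfl
    apply ha1
    rw [h0, zero_pow hp0, mul_zero]
  obtain ⟨k', d₀', hd₀', hd₀⟩ := WfDvdMonoid.max_power_factor hd0ne D.lam_prime.irreducible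
  have hld₀ : (ζ - 1) ∣ d₀ := by
    rw [h0, Units.dvd_mul_left] at hd1
    exact D.lam_prime.dvd_of_dvd_pow hd1
  have hk0 : k' ≠ 0 := by
    rintro rfl
    apply hd₀'
    rwa [hd₀, pow_zero, one_mul] at hld₀
  have hkm : k' ≤ m := by
    by_contra hcon
    have h3 : (ζ - 1) ^ (m + 1) ∣ d₀ := by
      rw [hd₀]
      exact Dvd.dvd.mul_right (pow_dvd_pow _ (by omega)) _
    have h4 : ((ζ - 1) ^ (m + 1)) ^ p ∣ a 1 := by
      rw [h0]
      exact Dvd.dvd.mul_left (pow_dvd_pow_of_dvd h3 p) _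
    have h5 : ((ζ - 1) ^ (m + 1)) ^ p ∣ ε * ((ζ - 1) ^ m * z) ^ p := by
      rw [← hprod]
      exact dvd_trans h4 (Finset.dvd_prod_of_mem a D.one_mem)
    rw [Units.dvd_mul_left, pow_succ, mul_pow, mul_pow,
      mul_dvd_mul_iff_left (pow_ne_zero _ (pow_ne_zero _ D.lam_ne_zero))] at h5
    exact hz (D.lam_prime.dvd_of_dvd_pow (dvd_trans (dvd_pow_self _ hp0) h5))
  obtain ⟨uζ, huζ⟩ := D.zeta_isUnit
  obtain ⟨u1, hu1⟩ := D.one_add_zeta_isUnit
  have hnew : d₁ ^ p + ((uζ * e₂ * e₁⁻¹ : Oˣ) : O) * d₂ ^ p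
      = ((u1 * e₀ * e₁⁻¹ : Oˣ) : O) * ((ζ - 1) ^ k' * d₀') ^ p := by
    rw [← hd₀]
    rw [h0, h1, h2] at hrel
    have he : ((e₁⁻¹ : Oˣ) : O) * (e₁ : O) = 1 := by simp
    push_cast
    rw [huζ, hu1]
    linear_combination ((e₁⁻¹ : Oˣ) : O) * hrel - d₁ ^ p * he
  have hld₂ : ¬ (ζ - 1) ∣ d₂ := by
    intro hcon
    apply hnd _ (D.zeta_pow_mem (p - 1)) D.zeta_inv_ne_one
    rw [h2]
    exact Dvd.dvd.mul_left (dvd_pow hcon hp0) _
  obtain ⟨v, hv⟩ := D.unit_eq_pow hld₂ (η := uζ * e₂ * e₁⁻¹) (d₁ := d₁) (by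
    rw [hnew]
    apply Dvd.dvd.mul_left
    rw [mul_pow]
    apply Dvd.dvd.mul_right
    rw [← pow_mul, mul_comm, pow_mul]
    exact dvd_trans D.p_dvd_lam_pow (dvd_pow_self _ hk0))
  refine ⟨k' - 1, by omega, d₁, v * d₂, d₀', u1 * e₀ * e₁⁻¹, ?_, ?_, hd₀', ?_⟩
  · rw [isCoprime_mul_unit_left_right v.isUnit]
    have hc : IsCoprime (a ζ) (a (ζ ^ (p - 1))) :=
      D.isCoprime_quot hxy D.zeta_mem (D.zeta_pow_mem (p - 1)) D.zeta_ne_inv (ha _ D.zeta_mem)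
        (ha _ (D.zeta_pow_mem (p - 1)))
    refine (hc.of_isCoprime_of_dvd_left ?_).of_isCoprime_of_dvd_right ?_
    · rw [h1]; exact Dvd.dvd.mul_left (dvd_pow_self _ hp0) _
    · rw [h2]; exact Dvd.dvd.mul_left (dvd_pow_self _ hp0) _
  · rwa [Units.dvd_mul_left]
  · rw [Nat.sub_add_cancel (Nat.one_le_iff_ne_zero.mpr hk0), ← hnew, mul_pow, hv]
    push_cast
    ring

/-- There is no solution of the generalised Fermat equation. -/
theorem not_sol (D : CycData O p ζ) (m : ℕ) : ¬ Sol O p ζ m := by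
  induction m using Nat.strong_induction_on with
  | _ m ih =>
    intro h
    obtain ⟨k, hk, hs⟩ := D.descent_step h
    exact ih k hk hs

theorem int_ne_of_dvd (D : CycData O p ζ) {a b c : ℤ} (hc0 : c ≠ 0) (hab : IsCoprime a b)
    (hpc : (p : ℤ) ∣ c) : a ^ p + b ^ p ≠ c ^ p := by
  intro heq
  have hpZ : Prime (p : ℤ) := Nat.prime_iff_prime_int.mp D.pp
  have hp0 : p ≠ 0 := D.pp.ne_zero
  have h3 := D.three_le
  obtain ⟨k, c', hc', hc⟩ := WfDvdMonoid.max_power_factor hc0 hpZ.irreducible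
  have hk0 : k ≠ 0 := by
    rintro rfl
    apply hc'
    rwa [hc, pow_zero, one_mul] at hpc
  obtain ⟨u, hu⟩ := D.assoc
  have hm : (p - 1) * k - 1 + 1 = (p - 1) * k := by
    have : 0 < (p - 1) * k := Nat.mul_pos (by omega) (Nat.pos_of_ne_zero hk0)
    omega
  apply D.not_sol ((p - 1) * k - 1)
  refine ⟨(a : O), (b : O), (c' : O), u ^ (k * p), hab.intCast, ?_, ?_, ?_⟩
  · intro h
    have hb : (p : ℤ) ∣ b := D.int_dvd b h
    have ha : (p : ℤ) ∣ a := by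
      apply hpZ.dvd_of_dvd_pow (n := p)
      have : a ^ p = c ^ p - b ^ p := by linarith
      rw [this]
      exact dvd_sub (dvd_pow hpc hp0) (dvd_pow hb hp0)
    exact hpZ.not_isUnit (hab.isUnit_of_dvd' ha hb)
  · intro h
    exact hc' (D.int_dvd c' h)
  · rw [hm]
    have h1 : ((a : O)) ^ p + (b : O) ^ p = (c : O) ^ p := by exact_mod_cast congrArg (Int.cast : ℤ → O) heq
    rw [h1, hc]
    push_cast
    rw [← hu]
    ring

theorem int_ne (D : CycData O p ζ) {a b c : ℤ} (hprod : a * b * c ≠ 0) (hab : IsCoprime a b)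
    (hdvd : (p : ℤ) ∣ a * b * c) : a ^ p + b ^ p ≠ c ^ p := by
  intro heq
  have hpZ : Prime (p : ℤ) := Nat.prime_iff_prime_int.mp D.pp
  have hp0 : 0 < p := D.pp.pos
  have ha0 : a ≠ 0 := fun h => hprod (by simp [h])
  have hb0 : b ≠ 0 := fun h => hprod (by simp [h])
  have hc0 : c ≠ 0 := fun h => hprod (by simp [h])
  have hcb : IsCoprime c b := by
    have := (hab.pow_left (m := p)).add_mul_left_left (b ^ (p - 1))
    rw [← pow_succ', Nat.sub_add_cancel hp0, heq] at this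
    exact (IsCoprime.pow_left_iff hp0).mp this
  have hca : IsCoprime c a := by
    have := (hab.symm.pow_left (m := p)).add_mul_left_left (a ^ (p - 1))
    rw [← pow_succ', Nat.sub_add_cancel hp0, add_comm, heq] at this
    exact (IsCoprime.pow_left_iff hp0).mp this
  rcases hpZ.dvd_or_dvd hdvd with h | h
  · rcases hpZ.dvd_or_dvd h with h | h
    · refine D.int_ne_of_dvd ha0 hcb.neg_right h ?_
      rw [D.odd.neg_pow]; linarith
    · refine D.int_ne_of_dvd hb0 hca.neg_right h ?_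
      rw [D.odd.neg_pow]; linarith
  · exact D.int_ne_of_dvd hc0 hab h heq

end PID

end CycData

end Fermat.Agent.Lib.Kummer
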