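import Mathlib

set_option autoImplicit false

namespace Fermat.Agent.Lib.Kummer

open Polynomial

section Trunc

variable (R : Type) [CommRing R] (n : ℕ)

/-- truncated polynomial ring `R[X]/(X^n)` -/
abbrev Trunc : Type := R[X] ⧸ Ideal.span {(X : R[X]) ^ n}

variable {R}

/-- the class of a polynomial -/
noncomputable def tmk : R[X] →+* Trunc R n := Ideal.Quotient.mk _

lemma tmk_surjective : Function.Surjective (tmk (R := R) n) := Ideal.Quotient.mk_surjective

lemma tmk_X_pow : tmk n ((X : R[X]) ^ n) = 0 :=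
  Ideal.Quotient.eq_zero_iff_mem.mpr (Ideal.mem_span_singleton_self _)

lemma span_succ_le : Ideal.span {(X : R[X]) ^ (n + 1)} ≤ Ideal.span {(X : R[X]) ^ n} := by
  rw [Ideal.span_singleton_le_span_singleton]
  exact pow_dvd_pow _ (Nat.le_succ n)

/-- projection -/
noncomputable def tpr : Trunc R (n + 1) →+* Trunc R n :=
  Ideal.Quotient.factor (span_succ_le n)

@[simp] lemma tpr_mk (f : R[X]) : tpr n (tmk (n + 1) f) = tmk n f := rfl

lemma derivative_mem {f : R[X]} (hf : f ∈ Ideal.span {(X : R[X]) ^ (n + 1)}) :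
    derivative f ∈ Ideal.span {(X : R[X]) ^ n} := by
  rw [Ideal.mem_span_singleton] at hf ⊢
  obtain ⟨g, rfl⟩ := hf
  rw [derivative_mul, derivative_X_pow]
  refine dvd_add ?_ ?_
  · simp only [Nat.add_sub_cancel]
    exact Dvd.dvd.mul_right (Dvd.dvd.mul_left dvd_rfl _) _
  · exact Dvd.dvd.mul_right (pow_dvd_pow _ (Nat.le_succ n)) _

/-- derivative on truncated polynomial rings -/
noncomputable def tder : Trunc R (n + 1) →+ Trunc R n :=
  QuotientAddGroup.lift _
    ((tmk n).toAddMonoidHom.comp (derivative : R[X] →ₗ[R] R[X]).toAddMonoidHom)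
    (by
      intro f hf
      have hf' : f ∈ Ideal.span {(X : R[X]) ^ (n + 1)} := hf
      exact Ideal.Quotient.eq_zero_iff_mem.mpr (derivative_mem n hf'))

@[simp] lemma tder_mk (f : R[X]) : tder n (tmk (n + 1) f) = tmk n (derivative f) := rfl

lemma tder_mul (a b : Trunc R (n + 1)) :
    tder n (a * b) = tpr n a * tder n b + tpr n b * tder n a := by
  obtain ⟨f, rfl⟩ := tmk_surjective _ a
  obtain ⟨g, rfl⟩ := tmk_surjective _ b
  rw [← map_mul, tder_mk, tder_mk, tder_mk, tpr_mk, tpr_mk, derivative_mul, map_add, map_mul,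
    map_mul]
  ring

lemma tder_one : tder n (1 : Trunc R (n + 1)) = 0 := by
  rw [← map_one (tmk (n + 1)), tder_mk]; simp

/-- logarithmic derivative -/
noncomputable def tlog : (Trunc R (n + 1))ˣ →* Multiplicative (Trunc R n) where
  toFun u := Multiplicative.ofAdd (tder n (u : Trunc R (n + 1)) * tpr n ((u⁻¹ : (Trunc R (n + 1))ˣ)))
  map_one' := by
    simp [tder_one]
  map_mul' u v := by
    rw [← ofAdd_add]
    congr 1
    have hu : tpr n (u : Trunc R (n + 1)) * tpr n ((u⁻¹ : (Trunc R (n + 1))ˣ)) = 1 := by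
      rw [← map_mul]; simp
    have hv : tpr n (v : Trunc R (n + 1)) * tpr n ((v⁻¹ : (Trunc R (n + 1))ˣ)) = 1 := by
      rw [← map_mul]; simp
    have huv : (((u * v)⁻¹ : (Trunc R (n + 1))ˣ) : Trunc R (n + 1)) =
        ((u⁻¹ : (Trunc R (n + 1))ˣ) : Trunc R (n + 1)) * ((v⁻¹ : (Trunc R (n + 1))ˣ)) := by
      rw [mul_inv_rev, Units.val_mul, mul_comm]
    rw [Units.val_mul, tder_mul, huv, map_mul]
    linear_combination (tder n (v : Trunc R (n + 1)) * tpr n ((v⁻¹ : (Trunc R (n + 1))ˣ))) * hu +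
      (tder n (u : Trunc R (n + 1)) * tpr n ((u⁻¹ : (Trunc R (n + 1))ˣ))) * hv

lemma tlog_apply (u : (Trunc R (n + 1))ˣ) :
    (tlog n u).toAdd = tder n (u : Trunc R (n + 1)) * tpr n ((u⁻¹ : (Trunc R (n + 1))ˣ)) := rfl

/-- characterisation of the logarithmic derivative by a polynomial identity -/
lemma tlog_eq_of_mul_eq (u : (Trunc R (n + 1))ˣ) (c d b : R[X])
    (hu : (u : Trunc R (n + 1)) = tmk (n + 1) c)
    (h : c * d = derivative c + X ^ n * b) : (tlog n u).toAdd = tmk n d := by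
  rw [tlog_apply, hu, tder_mk]
  have h1 : tmk n c * tmk n d = tmk n (derivative c) := by
    rw [← map_mul, h, map_add, map_mul, tmk_X_pow]; simp
  have h2 : tmk n c * tpr n ((u⁻¹ : (Trunc R (n + 1))ˣ)) = 1 := by
    rw [← tpr_mk, ← hu, ← map_mul]; simp
  rw [← h1]
  linear_combination (tmk n d) * h2

/-- coefficient functionals on the truncated polynomial ring -/
noncomputable def tcoeff (k : ℕ) (hk : k < n) : Trunc R n →ₗ[R] R :=
  Submodule.liftQ (Submodule.restrictScalars R (Ideal.span {(X : R[X]) ^ n})) (lcoeff R k) (by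
    intro f hf
    have hf' : f ∈ Ideal.span {(X : R[X]) ^ n} := hf
    rw [Ideal.mem_span_singleton, X_pow_dvd_iff] at hf'
    simpa using hf' k hk)

@[simp] lemma tcoeff_mk (k : ℕ) (hk : k < n) (f : R[X]) : tcoeff n k hk (tmk n f) = f.coeff k := rfl

end Trunc

end Fermat.Agent.Lib.Kummer
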