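import Mathlib

set_option autoImplicit false

namespace Fermat.Agent.Lib.Kummer

open NumberField

/-- abstract criterion for being a `p`-th power -/
theorem exists_pow_of_hom {E : Type*} [CommGroup E] {p : ℕ} [Fact p.Prime]
    {W : Type*} [AddCommGroup W] [Module (ZMod p) W]
    (D : E →* Multiplicative W) {ι : Type*} [Fintype ι] (g : ι → E)
    (hg : ∀ x : E, ∃ n : ι → ℤ, x = ∏ i, g i ^ n i)
    {κ : Type*} [Fintype κ] (c : κ → E)
    (hc : LinearIndependent (ZMod p) (fun j => (D (c j)).toAdd))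
    (hcard : Fintype.card ι ≤ Fintype.card κ) (u : E) (hu : D u = 1) : ∃ v, u = v ^ p := by
  classical
  set w : ι → W := fun i => (D (g i)).toAdd with hw
  have hD : ∀ n : ι → ℤ, (D (∏ i, g i ^ n i)).toAdd = ∑ i, ((n i : ℤ) : ZMod p) • w i := by
    intro n
    rw [map_prod, toAdd_prod]
    refine Finset.sum_congr rfl fun i _ => ?_
    rw [map_zpow, toAdd_zpow, Int.cast_smul_eq_zsmul]
  have hmem : ∀ x : E, (D x).toAdd ∈ Submodule.span (ZMod p) (Set.range w) := by
    intro x
    obtain ⟨n, rfl⟩ := hg x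
    rw [hD]
    exact Submodule.sum_mem _ fun i _ =>
      Submodule.smul_mem _ _ (Submodule.subset_span (Set.mem_range_self i))
  have hle : Submodule.span (ZMod p) (Set.range fun j => (D (c j)).toAdd) ≤
      Submodule.span (ZMod p) (Set.range w) := by
    rw [Submodule.span_le]
    rintro _ ⟨j, rfl⟩
    exact hmem _
  have hfin : Module.Finite (ZMod p) (Submodule.span (ZMod p) (Set.range w)) :=
    FiniteDimensional.span_of_finite _ (Set.finite_range w)
  have h1 : Fintype.card κ ≤ Set.finrank (ZMod p) (Set.range w) := by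
    rw [← finrank_span_eq_card hc]
    exact Submodule.finrank_mono hle
  have hwi : LinearIndependent (ZMod p) w :=
    linearIndependent_iff_card_le_finrank_span.mpr (hcard.trans h1)
  obtain ⟨n, hn⟩ := hg u
  have h0 : ∑ i, ((n i : ℤ) : ZMod p) • w i = 0 := by
    rw [← hD, ← hn, hu]; rfl
  have h2 := Fintype.linearIndependent_iff.mp hwi _ h0
  have h3 : ∀ i, ∃ m : ℤ, n i = p * m := fun i =>
    (ZMod.intCast_zmod_eq_zero_iff_dvd (n i) p).mp (h2 i)
  choose m hm using h3
  refine ⟨∏ i, g i ^ m i, ?_⟩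
  rw [hn, ← Finset.prod_pow]
  refine Finset.prod_congr rfl fun i _ => ?_
  rw [hm i, mul_comm, zpow_mul, zpow_natCast]

variable (K : Type) [Field K] [NumberField K]

/-- the unit group is generated by `rank + 1` elements -/
theorem exists_unit_generators :
    ∃ g : Option (Fin (Units.rank K)) → (𝓞 K)ˣ,
      ∀ x : (𝓞 K)ˣ, ∃ n : Option (Fin (Units.rank K)) → ℤ, x = ∏ i, g i ^ n i := by
  classical
  obtain ⟨t, ht⟩ := IsCyclic.exists_generator (α := Units.torsion K)
  refine ⟨fun o => o.elim (t : (𝓞 K)ˣ) (Units.fundSystem K), fun x => ?_⟩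
  obtain ⟨⟨τ, e⟩, hx, -⟩ := Units.exist_unique_eq_mul_prod K x
  obtain ⟨k, hk⟩ := Subgroup.mem_zpowers_iff.mp (ht τ)
  refine ⟨fun o => o.elim k e, ?_⟩
  rw [Fintype.prod_option]
  simp only [Option.elim]
  rw [hx]
  congr 1
  rw [← hk]
  simp

theorem rank_add_one_eq {p : ℕ} [Fact p.Prime] (hp2 : p ≠ 2) [IsCyclotomicExtension {p} ℚ K] :
    Units.rank K + 1 = (p - 1) / 2 := by
  have hp : p.Prime := Fact.out
  have h2 : 2 < p := lt_of_le_of_ne hp.two_le (Ne.symm hp2)
  have hr : InfinitePlace.nrRealPlaces K = 0 :=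
    IsCyclotomicExtension.Rat.nrRealPlaces_eq_zero (n := p) K h2
  have hc : InfinitePlace.nrComplexPlaces K = (p - 1) / 2 := by
    rw [IsCyclotomicExtension.Rat.nrComplexPlaces_eq_totient_div_two p K, Nat.totient_prime hp]
  have hcard : Fintype.card (InfinitePlace K) = (p - 1) / 2 := by
    rw [InfinitePlace.card_eq_nrRealPlaces_add_nrComplexPlaces, hr, hc, zero_add]
  have hpos : 0 < (p - 1) / 2 := by omega
  rw [Units.rank, hcard]
  omega

end Fermat.Agent.Lib.Kummer
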