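import Mathlib
import Fermat.Agent.Lib.Kummer.LogDeriv
import Fermat.Agent.Lib.Kummer.UnitGen

set_option autoImplicit false

namespace Fermat.Agent.Lib.Kummer

open NumberField Polynomial

/-- `1 + (1+X) + ... + (1+X)^(a-1)` -/
noncomputable def geomP (R : Type) [CommRing R] (a : ℕ) : R[X] :=
  ∑ i ∈ Finset.range a, (1 + X) ^ i

section

variable {p n : ℕ} [hpf : Fact p.Prime] (hpn : p = n + 2)

include hpn in
lemma cyclotomic_comp_eq : (cyclotomic p (ZMod p)).comp (1 + X) = X ^ (n + 1) := by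
  have h := cyclotomic_mul_prime_pow_eq (ZMod p) (p := p) (m := 1)
    (by simpa using hpf.out.one_lt.ne') (k := 1) one_pos
  simp only [pow_one, mul_one, Nat.sub_self, pow_zero, cyclotomic_one] at h
  rw [h]
  have : p - 1 = n + 1 := by omega
  rw [this]
  simp

variable {K : Type} [Field K] [NumberField K] [IsCyclotomicExtension {p} ℚ K]
  {ζ : K} (hζ : IsPrimitiveRoot ζ p)

include hpn in
lemma aeval_minpoly_eq_zero :
    aeval (tmk (R := ZMod p) (n + 1) (1 + X)) (minpoly ℤ hζ.integralPowerBasis.gen) = 0 := by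
  have h1 : minpoly ℤ hζ.integralPowerBasis.gen = cyclotomic p ℤ := by
    rw [IsPrimitiveRoot.integralPowerBasis_gen, cyclotomic_eq_minpoly hζ hpf.out.pos]
    exact (NumberField.RingOfIntegers.minpoly_coe hζ.toInteger).symm
  rw [h1]
  have h2 : aeval (tmk (R := ZMod p) (n + 1) (1 + X)) (cyclotomic p ℤ) =
      tmk (n + 1) ((cyclotomic p (ZMod p)).comp (1 + X)) := by
    rw [← map_cyclotomic_int p (ZMod p), comp, eval₂_map, aeval_def, hom_eval₂]
    congr 1
  rw [h2, cyclotomic_comp_eq hpn, tmk_X_pow]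

/-- reduction map `𝓞 K → 𝔽_p[X]/(X^(p-1))`, `ζ ↦ 1 + X` -/
noncomputable def redHom : 𝓞 K →+* Trunc (ZMod p) (n + 1) :=
  (hζ.integralPowerBasis.lift _ (aeval_minpoly_eq_zero hpn hζ)).toRingHom

lemma redHom_zeta : redHom hpn hζ hζ.toInteger = tmk (n + 1) (1 + X) := by
  have := hζ.integralPowerBasis.lift_gen _ (aeval_minpoly_eq_zero hpn hζ)
  rw [IsPrimitiveRoot.integralPowerBasis_gen] at this
  exact this

lemma redHom_geom (a : ℕ) :
    redHom hpn hζ (∑ i ∈ Finset.range a, hζ.toInteger ^ i) = tmk (n + 1) (geomP (ZMod p) a) := by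
  rw [geomP, map_sum, map_sum]
  refine Finset.sum_congr rfl fun i _ => ?_
  rw [map_pow, map_pow, redHom_zeta]

lemma redHom_natCast_p : redHom hpn hζ (p : 𝓞 K) = 0 := by
  rw [map_natCast]
  have : ((p : ℕ) : (ZMod p)[X]) = 0 := by
    rw [← C_eq_natCast]; simp
  rw [← map_natCast (tmk (R := ZMod p) (n + 1)), this, map_zero]

/-- the log-derivative homomorphism on units -/
noncomputable def unitLog : (𝓞 K)ˣ →* Multiplicative (Trunc (ZMod p) n) :=
  (tlog n).comp (Units.map (redHom hpn hζ).toMonoidHom)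

lemma unitLog_eq_one_of_dvd (u : (𝓞 K)ˣ) (h : ∃ m : ℤ, (p : 𝓞 K) ∣ (u : 𝓞 K) - m) :
    unitLog hpn hζ u = 1 := by
  obtain ⟨m, x, hx⟩ := h
  have h1 : redHom hpn hζ (u : 𝓞 K) = tmk (n + 1) (C (m : ZMod p)) := by
    have : (u : 𝓞 K) = m + p * x := by rw [← hx]; ring
    rw [this, map_add, map_mul, redHom_natCast_p, zero_mul, add_zero, map_intCast]
    rw [← map_intCast (tmk (R := ZMod p) (n + 1))]
    congr 1
  have h2 : (unitLog hpn hζ u).toAdd = 0 := by
    change (tlog n (Units.map (redHom hpn hζ).toMonoidHom u)).toAdd = 0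
    rw [tlog_apply]
    have : ((Units.map (redHom hpn hζ).toMonoidHom u : (Trunc (ZMod p) (n + 1))ˣ) :
        Trunc (ZMod p) (n + 1)) = redHom hpn hζ (u : 𝓞 K) := rfl
    rw [this, h1, tder_mk, derivative_C, map_zero, zero_mul]
  exact h2

include hpn hζ in
/-- Kummer's lemma from an explicit certificate. -/
theorem kummer_of_cert (hp2 : p ≠ 2) (v b : Fin ((p - 1) / 2) → (ZMod p)[X])
    (h1 : ∀ j : Fin ((p - 1) / 2), geomP (ZMod p) (j + 2) * v j =
      derivative (geomP (ZMod p) (j + 2)) + X ^ n * b j)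
    (h2 : LinearIndependent (ZMod p) (fun j => tmk n (v j)))
    (u : (𝓞 K)ˣ) (hu : ∃ m : ℤ, (p : 𝓞 K) ∣ (u : 𝓞 K) - m) : ∃ w : (𝓞 K)ˣ, u = w ^ p := by
  classical
  have hp : p.Prime := hpf.out
  obtain ⟨g, hg⟩ := exists_unit_generators K
  have hcop : ∀ j : Fin ((p - 1) / 2), ((j : ℕ) + 2).Coprime p := by
    intro j
    have hj := j.2
    refine Nat.Coprime.symm ((Nat.Prime.coprime_iff_not_dvd hp).2 ?_)
    exact Nat.not_dvd_of_pos_of_lt (by omega) (by omega)
  let c : Fin ((p - 1) / 2) → (𝓞 K)ˣ := fun j =>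
    (hζ.toInteger_isPrimitiveRoot.geom_sum_isUnit hp.two_le (hcop j)).unit
  refine exists_pow_of_hom (unitLog hpn hζ) g hg c ?_ ?_ u (unitLog_eq_one_of_dvd hpn hζ u hu)
  · have hfun : (fun j => (unitLog hpn hζ (c j)).toAdd) = fun j => tmk n (v j) := by
      funext j
      change (tlog n (Units.map (redHom hpn hζ).toMonoidHom (c j))).toAdd = _
      refine tlog_eq_of_mul_eq n _ (geomP (ZMod p) (j + 2)) (v j) (b j) ?_ (h1 j)
      exact redHom_geom hpn hζ (j + 2)
    rw [hfun]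
    exact h2
  · rw [Fintype.card_option, Fintype.card_fin, Fintype.card_fin, rank_add_one_eq K hp2]

end

end Fermat.Agent.Lib.Kummer
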