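import Mathlib
import Fermat.Agent.Lib.Kummer.KummerGeneric

set_option autoImplicit false
set_option linter.unusedSimpArgs false

namespace Fermat.Agent.Lib.Kummer

open NumberField Polynomial

namespace Cert11

instance : Fact (Nat.Prime 11) := ⟨by norm_num⟩

lemma hchar' : (11 : (ZMod 11)[X]) = 0 := by
  exact_mod_cast (CharP.cast_eq_zero ((ZMod 11)[X]) 11)

lemma hchar0 : (11 : ZMod 11) = 0 := by
  exact_mod_cast (ZMod.natCast_self 11)

noncomputable def v0 : (ZMod 11)[X] := 6 + 8 * X + 7 * X ^ 2 + 2 * X ^ 3 + 10 * X ^ 4 + 6 * X ^ 5 + 8 * X ^ 6 + 7 * X ^ 7 + 2 * X ^ 8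
noncomputable def b0 : (ZMod 11)[X] := 2

lemma cert0 : geomP (ZMod 11) (0 + 2) * v0 = derivative (geomP (ZMod 11) (0 + 2)) + X ^ 9 * b0 := by
  simp only [geomP, v0, b0, Finset.sum_range_succ, Finset.sum_range_zero, derivative_add, derivative_pow,
    derivative_one, derivative_X, derivative_zero, pow_zero, pow_one, zero_add, add_zero, mul_one, Nat.cast_ofNat, Nat.reduceAdd, Nat.reduceSub, Nat.cast_one, map_ofNat, map_one, one_mul]
  linear_combination (1 + 2 * X + 2 * X ^ 2 + X ^ 3 + 2 * X ^ 4 + 2 * X ^ 5 + 2 * X ^ 6 + 2 * X ^ 7 + X ^ 8) * hchar'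

noncomputable def v1 : (ZMod 11)[X] := 1 + 7 * X + 5 * X ^ 3 + 6 * X ^ 4 + 7 * X ^ 5 + 2 * X ^ 6 + 3 * X ^ 7
noncomputable def b1 : (ZMod 11)[X] := 3

lemma cert1 : geomP (ZMod 11) (1 + 2) * v1 = derivative (geomP (ZMod 11) (1 + 2)) + X ^ 9 * b1 := by
  simp only [geomP, v1, b1, Finset.sum_range_succ, Finset.sum_range_zero, derivative_add, derivative_pow,
    derivative_one, derivative_X, derivative_zero, pow_zero, pow_one, zero_add, add_zero, mul_one, Nat.cast_ofNat, Nat.reduceAdd, Nat.reduceSub, Nat.cast_one, map_ofNat, map_one, one_mul]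
  linear_combination (2 * X + 2 * X ^ 2 + 2 * X ^ 3 + 3 * X ^ 4 + 4 * X ^ 5 + 3 * X ^ 6 + 2 * X ^ 7 + X ^ 8) * hchar'

noncomputable def v2 : (ZMod 11)[X] := 7 + 8 * X + X ^ 2 + 8 * X ^ 3 + 7 * X ^ 4 + 6 * X ^ 5 + 4 * X ^ 6
noncomputable def b2 : (ZMod 11)[X] := 4

lemma cert2 : geomP (ZMod 11) (2 + 2) * v2 = derivative (geomP (ZMod 11) (2 + 2)) + X ^ 9 * b2 := by
  simp only [geomP, v2, b2, Finset.sum_range_succ, Finset.sum_range_zero, derivative_add, derivative_pow,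
    derivative_one, derivative_X, derivative_zero, pow_zero, pow_one, zero_add, add_zero, mul_one, Nat.cast_ofNat, Nat.reduceAdd, Nat.reduceSub, Nat.cast_one, map_ofNat, map_one, one_mul]
  linear_combination (2 + 6 * X + 7 * X ^ 2 + 7 * X ^ 3 + 8 * X ^ 4 + 9 * X ^ 5 + 8 * X ^ 6 + 5 * X ^ 7 + 2 * X ^ 8) * hchar'

noncomputable def v3 : (ZMod 11)[X] := 2 + 10 * X ^ 2 + 3 * X ^ 3 + 6 * X ^ 5 + 5 * X ^ 6 + 6 * X ^ 7 + 5 * X ^ 8
noncomputable def b3 : (ZMod 11)[X] := 141 + 85 * X + 31 * X ^ 2 + 5 * X ^ 3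

lemma cert3 : geomP (ZMod 11) (3 + 2) * v3 = derivative (geomP (ZMod 11) (3 + 2)) + X ^ 9 * b3 := by
  simp only [geomP, v3, b3, Finset.sum_range_succ, Finset.sum_range_zero, derivative_add, derivative_pow,
    derivative_one, derivative_X, derivative_zero, pow_zero, pow_one, zero_add, add_zero, mul_one, Nat.cast_ofNat, Nat.reduceAdd, Nat.reduceSub, Nat.cast_one, map_ofNat, map_one, one_mul]
  linear_combination (5 * X ^ 2 + 11 * X ^ 3 + 12 * X ^ 4 + 10 * X ^ 5 + 10 * X ^ 6 + 13 * X ^ 7 + 15 * X ^ 8) * hchar'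

noncomputable def v4 : (ZMod 11)[X] := 8 + 5 * X + 5 * X ^ 2 + 8 * X ^ 3 + 6 * X ^ 4
noncomputable def b4 : (ZMod 11)[X] := 6

lemma cert4 : geomP (ZMod 11) (4 + 2) * v4 = derivative (geomP (ZMod 11) (4 + 2)) + X ^ 9 * b4 := by
  simp only [geomP, v4, b4, Finset.sum_range_succ, Finset.sum_range_zero, derivative_add, derivative_pow,
    derivative_one, derivative_X, derivative_zero, pow_zero, pow_one, zero_add, add_zero, mul_one, Nat.cast_ofNat, Nat.reduceAdd, Nat.reduceSub, Nat.cast_one, map_ofNat, map_one, one_mul]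
  linear_combination (3 + 10 * X + 20 * X ^ 2 + 29 * X ^ 3 + 34 * X ^ 4 + 33 * X ^ 5 + 25 * X ^ 6 + 13 * X ^ 7 + 4 * X ^ 8) * hchar'

lemma v0_coeff_0 : v0.coeff 0 = 6 := by
  simp [v0, coeff_X, coeff_one, coeff_X_pow]

lemma v0_coeff_1 : v0.coeff 1 = 8 := by
  simp [v0, coeff_X, coeff_one, coeff_X_pow]

lemma v0_coeff_3 : v0.coeff 3 = 2 := by
  simp [v0, coeff_X, coeff_one, coeff_X_pow]

lemma v0_coeff_5 : v0.coeff 5 = 6 := by
  simp [v0, coeff_X, coeff_one, coeff_X_pow]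

lemma v0_coeff_7 : v0.coeff 7 = 7 := by
  simp [v0, coeff_X, coeff_one, coeff_X_pow]

lemma v1_coeff_0 : v1.coeff 0 = 1 := by
  simp [v1, coeff_X, coeff_one, coeff_X_pow]

lemma v1_coeff_1 : v1.coeff 1 = 7 := by
  simp [v1, coeff_X, coeff_one, coeff_X_pow]

lemma v1_coeff_3 : v1.coeff 3 = 5 := by
  simp [v1, coeff_X, coeff_one, coeff_X_pow]

lemma v1_coeff_5 : v1.coeff 5 = 7 := by
  simp [v1, coeff_X, coeff_one, coeff_X_pow]

lemma v1_coeff_7 : v1.coeff 7 = 3 := by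
  simp [v1, coeff_X, coeff_one, coeff_X_pow]

lemma v2_coeff_0 : v2.coeff 0 = 7 := by
  simp [v2, coeff_X, coeff_one, coeff_X_pow]

lemma v2_coeff_1 : v2.coeff 1 = 8 := by
  simp [v2, coeff_X, coeff_one, coeff_X_pow]

lemma v2_coeff_3 : v2.coeff 3 = 8 := by
  simp [v2, coeff_X, coeff_one, coeff_X_pow]

lemma v2_coeff_5 : v2.coeff 5 = 6 := by
  simp [v2, coeff_X, coeff_one, coeff_X_pow]

lemma v2_coeff_7 : v2.coeff 7 = 0 := by
  simp [v2, coeff_X, coeff_one, coeff_X_pow]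

lemma v3_coeff_0 : v3.coeff 0 = 2 := by
  simp [v3, coeff_X, coeff_one, coeff_X_pow]

lemma v3_coeff_1 : v3.coeff 1 = 0 := by
  simp [v3, coeff_X, coeff_one, coeff_X_pow]

lemma v3_coeff_3 : v3.coeff 3 = 3 := by
  simp [v3, coeff_X, coeff_one, coeff_X_pow]

lemma v3_coeff_5 : v3.coeff 5 = 6 := by
  simp [v3, coeff_X, coeff_one, coeff_X_pow]

lemma v3_coeff_7 : v3.coeff 7 = 6 := by
  simp [v3, coeff_X, coeff_one, coeff_X_pow]

lemma v4_coeff_0 : v4.coeff 0 = 8 := by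
  simp [v4, coeff_X, coeff_one, coeff_X_pow]

lemma v4_coeff_1 : v4.coeff 1 = 5 := by
  simp [v4, coeff_X, coeff_one, coeff_X_pow]

lemma v4_coeff_3 : v4.coeff 3 = 8 := by
  simp [v4, coeff_X, coeff_one, coeff_X_pow]

lemma v4_coeff_5 : v4.coeff 5 = 0 := by
  simp [v4, coeff_X, coeff_one, coeff_X_pow]

lemma v4_coeff_7 : v4.coeff 7 = 0 := by
  simp [v4, coeff_X, coeff_one, coeff_X_pow]

lemma indep : LinearIndependent (ZMod 11) (fun j : Fin ((11 - 1) / 2) => tmk 9 ((![v0, v1, v2, v3, v4] : Fin 5 → (ZMod 11)[X]) j)) := by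
  rw [Fintype.linearIndependent_iff]
  intro g hg
  change ∑ i : Fin 5, g i • tmk 9 ((![v0, v1, v2, v3, v4] : Fin 5 → (ZMod 11)[X]) i) = 0 at hg
  rw [Fin.sum_univ_five] at hg
  simp only [Matrix.cons_val] at hg
  have e0 := congrArg (tcoeff 9 0 (by norm_num)) hg
  have e1 := congrArg (tcoeff 9 1 (by norm_num)) hg
  have e2 := congrArg (tcoeff 9 3 (by norm_num)) hg
  have e3 := congrArg (tcoeff 9 5 (by norm_num)) hg
  have e4 := congrArg (tcoeff 9 7 (by norm_num)) hg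
  simp only [map_add, map_smul, map_zero, tcoeff_mk, smul_eq_mul] at e0 e1 e2 e3 e4
  simp only [v0_coeff_0, v0_coeff_1, v0_coeff_3, v0_coeff_5, v0_coeff_7, v1_coeff_0, v1_coeff_1, v1_coeff_3, v1_coeff_5, v1_coeff_7, v2_coeff_0, v2_coeff_1, v2_coeff_3, v2_coeff_5, v2_coeff_7, v3_coeff_0, v3_coeff_1, v3_coeff_3, v3_coeff_5, v3_coeff_7, v4_coeff_0, v4_coeff_1, v4_coeff_3, v4_coeff_5, v4_coeff_7] at e0 e1 e2 e3 e4
  have h0 : g 0 = 0 := by linear_combination 6 * e0 + 8 * e1 + 8 * e3 + 1 * e4 - (14 * g 0 + 11 * g 1 + 14 * g 2 + 6 * g 3 + 8 * g 4) * hchar0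
  have h1 : g 1 = 0 := by linear_combination 7 * e0 + 7 * e1 + 1 * e2 + 5 * e3 + 5 * e4 - (15 * g 0 + 10 * g 1 + 13 * g 2 + 7 * g 3 + 9 * g 4) * hchar0
  have h2 : g 2 = 0 := by linear_combination 4 * e1 + 3 * e2 + 4 * e4 - (6 * g 0 + 5 * g 1 + 5 * g 2 + 3 * g 3 + 4 * g 4) * hchar0
  have h3 : g 3 = 0 := by linear_combination 6 * e0 + 5 * e2 + 1 * e3 + 2 * e4 - (6 * g 0 + 4 * g 1 + 8 * g 2 + 4 * g 3 + 8 * g 4) * hchar0
  have h4 : g 4 = 0 := by linear_combination 7 * e0 + 2 * e1 + 7 * e2 + 7 * e4 - (11 * g 0 + 7 * g 1 + 11 * g 2 + 7 * g 3 + 11 * g 4) * hchar0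
  intro i
  fin_cases i
  · exact h0
  · exact h1
  · exact h2
  · exact h3
  · exact h4

end Cert11

open Cert11 in
theorem kummer_eleven {K : Type} [Field K] [NumberField K] [IsCyclotomicExtension {11} ℚ K]
    (u : (𝓞 K)ˣ) (hu : ∃ m : ℤ, ((11 : ℕ) : 𝓞 K) ∣ (u : 𝓞 K) - m) : ∃ w : (𝓞 K)ˣ, u = w ^ 11 := by
  refine kummer_of_cert (p := 11) (n := 9) rfl (IsCyclotomicExtension.zeta_spec 11 ℚ K) (by norm_num)
    (![v0, v1, v2, v3, v4] : Fin 5 → (ZMod 11)[X]) (![b0, b1, b2, b3, b4] : Fin 5 → (ZMod 11)[X]) ?_ indep u hu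
  intro j
  fin_cases j
  · exact cert0
  · exact cert1
  · exact cert2
  · exact cert3
  · exact cert4

end Fermat.Agent.Lib.Kummer
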