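import Mathlib
import Fermat.Agent.Lib.Kummer.KummerGeneric

set_option autoImplicit false
set_option linter.unusedSimpArgs false

namespace Fermat.Agent.Lib.Kummer

open NumberField Polynomial

namespace Cert5

instance : Fact (Nat.Prime 5) := ⟨by norm_num⟩

lemma hchar' : (5 : (ZMod 5)[X]) = 0 := by
  exact_mod_cast (CharP.cast_eq_zero ((ZMod 5)[X]) 5)

lemma hchar0 : (5 : ZMod 5) = 0 := by
  exact_mod_cast (ZMod.natCast_self 5)

noncomputable def v0 : (ZMod 5)[X] := 3 + X + 2 * X ^ 2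
noncomputable def b0 : (ZMod 5)[X] := 2

lemma cert0 : geomP (ZMod 5) (0 + 2) * v0 = derivative (geomP (ZMod 5) (0 + 2)) + X ^ 3 * b0 := by
  simp only [geomP, v0, b0, Finset.sum_range_succ, Finset.sum_range_zero, derivative_add, derivative_pow,
    derivative_one, derivative_X, derivative_zero, pow_zero, pow_one, zero_add, add_zero, mul_one, Nat.cast_ofNat, Nat.reduceAdd, Nat.reduceSub, Nat.cast_one, map_ofNat, map_one, one_mul]
  linear_combination (1 + X + X ^ 2) * hchar'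

noncomputable def v1 : (ZMod 5)[X] := 1 + 3 * X
noncomputable def b1 : (ZMod 5)[X] := 3

lemma cert1 : geomP (ZMod 5) (1 + 2) * v1 = derivative (geomP (ZMod 5) (1 + 2)) + X ^ 3 * b1 := by
  simp only [geomP, v1, b1, Finset.sum_range_succ, Finset.sum_range_zero, derivative_add, derivative_pow,
    derivative_one, derivative_X, derivative_zero, pow_zero, pow_one, zero_add, add_zero, mul_one, Nat.cast_ofNat, Nat.reduceAdd, Nat.reduceSub, Nat.cast_one, map_ofNat, map_one, one_mul]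
  linear_combination (2 * X + 2 * X ^ 2) * hchar'

lemma v0_coeff_0 : v0.coeff 0 = 3 := by
  simp [v0, coeff_X, coeff_one, coeff_X_pow]

lemma v0_coeff_1 : v0.coeff 1 = 1 := by
  simp [v0, coeff_X, coeff_one, coeff_X_pow]

lemma v1_coeff_0 : v1.coeff 0 = 1 := by
  simp [v1, coeff_X, coeff_one, coeff_X_pow]

lemma v1_coeff_1 : v1.coeff 1 = 3 := by
  simp [v1, coeff_X, coeff_one, coeff_X_pow]

lemma indep : LinearIndependent (ZMod 5) (fun j : Fin ((5 - 1) / 2) => tmk 3 ((![v0, v1] : Fin 2 → (ZMod 5)[X]) j)) := by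
  rw [Fintype.linearIndependent_iff]
  intro g hg
  change ∑ i : Fin 2, g i • tmk 3 ((![v0, v1] : Fin 2 → (ZMod 5)[X]) i) = 0 at hg
  rw [Fin.sum_univ_two] at hg
  simp only [Matrix.cons_val] at hg
  have e0 := congrArg (tcoeff 3 0 (by norm_num)) hg
  have e1 := congrArg (tcoeff 3 1 (by norm_num)) hg
  simp only [map_add, map_smul, map_zero, tcoeff_mk, smul_eq_mul] at e0 e1
  simp only [v0_coeff_0, v0_coeff_1, v1_coeff_0, v1_coeff_1] at e0 e1
  have h0 : g 0 = 0 := by linear_combination 1 * e0 + 3 * e1 - (1 * g 0 + 2 * g 1) * hchar0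
  have h1 : g 1 = 0 := by linear_combination 3 * e0 + 1 * e1 - (2 * g 0 + 1 * g 1) * hchar0
  intro i
  fin_cases i
  · exact h0
  · exact h1

end Cert5

open Cert5 in
theorem kummer_five {K : Type} [Field K] [NumberField K] [IsCyclotomicExtension {5} ℚ K]
    (u : (𝓞 K)ˣ) (hu : ∃ m : ℤ, ((5 : ℕ) : 𝓞 K) ∣ (u : 𝓞 K) - m) : ∃ w : (𝓞 K)ˣ, u = w ^ 5 := by
  refine kummer_of_cert (p := 5) (n := 3) rfl (IsCyclotomicExtension.zeta_spec 5 ℚ K) (by norm_num)
    (![v0, v1] : Fin 2 → (ZMod 5)[X]) (![b0, b1] : Fin 2 → (ZMod 5)[X]) ?_ indep u hu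
  intro j
  fin_cases j
  · exact cert0
  · exact cert1

end Fermat.Agent.Lib.Kummer
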