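import Mathlib

/-!
# Generic tools to prove that `ℤ[ζ_p]` is a PID from explicit certificates
-/

namespace Fermat.Agent.Lib.Kummer

open NumberField Polynomial Ideal RingOfIntegers NumberField.Ideal IsCyclotomicExtension
  IsCyclotomicExtension.Rat

variable {K : Type} [Field K] [NumberField K]

/-- If `Q mod q` is a monic irreducible factor of `Φ_p mod q` and `(q, Q(ζ)) = (α)` (certified by
explicit cofactors), then there is a principal prime above `q`. -/
theorem exists_principal_prime (p q : ℕ) [NeZero p] [Fact q.Prime]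
    [IsCyclotomicExtension {p} ℚ K]
    (Q : ℤ[X]) (hirr : Irreducible (Q.map (Int.castRingHom (ZMod q))))
    (hmonic : (Q.map (Int.castRingHom (ZMod q))).Monic)
    (hdvd : Q.map (Int.castRingHom (ZMod q)) ∣ cyclotomic p (ZMod q))
    (α β γ s t : 𝓞 K)
    (h1 : α * β = (q : 𝓞 K)) (h2 : α * γ = aeval (zeta_spec p ℚ K).toInteger Q)
    (h3 : α = s * (q : 𝓞 K) + t * aeval (zeta_spec p ℚ K).toInteger Q) :
    ∃ P ∈ primesOver (span {(q : ℤ)}) (𝓞 K), Submodule.IsPrincipal P := by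
  set ζ := (zeta_spec p ℚ K).toInteger with hζ
  have h₁ : ¬ q ∣ exponent ζ := by
    rw [exponent_eq_one_iff.mpr <| adjoin_singleton_eq_top (zeta_spec p ℚ K)]
    exact (Fact.out : q.Prime).not_dvd_one
  have hQ : Q.map (Int.castRingHom (ZMod q)) ∈ monicFactorsMod ζ q := by
    rw [Multiset.mem_toFinset, Polynomial.mem_normalizedFactors_iff
      (map_monic_ne_zero (minpoly.monic ζ.isIntegral))]
    refine ⟨hirr, hmonic, ?_⟩
    refine dvd_trans hdvd ?_
    rw [← map_cyclotomic_int, cyclotomic_eq_minpoly (zeta_spec p ℚ K) (NeZero.pos _),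
      ← (zeta_spec p ℚ K).coe_toInteger, ← RingOfIntegers.minpoly_coe ζ]
    simp [ζ]
  refine ⟨_, ((primesOverSpanEquivMonicFactorsMod h₁).symm ⟨_, hQ⟩).2, ?_⟩
  rw [primesOverSpanEquivMonicFactorsMod_symm_apply_eq_span h₁ hQ]
  refine ⟨α, ?_⟩
  apply le_antisymm
  · rw [Ideal.span_le]
    intro x hx
    simp only [Set.mem_insert_iff, Set.mem_singleton_iff] at hx
    rcases hx with rfl | rfl
    · exact Ideal.mem_span_singleton.mpr ⟨β, h1.symm⟩
    · exact Ideal.mem_span_singleton.mpr ⟨γ, h2.symm⟩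
  · change Ideal.span {α} ≤ _
    rw [Ideal.span_singleton_le_iff_mem, h3]
    exact Ideal.add_mem _ (Ideal.mul_mem_left _ _ (Ideal.subset_span (by simp)))
      (Ideal.mul_mem_left _ _ (Ideal.subset_span (by simp)))

/-- Variant of `exists_principal_prime` with the divisibility certified over `ℤ[X]`. -/
theorem exists_principal_prime_int (p q : ℕ) [hp : Fact p.Prime] [Fact q.Prime]
    [IsCyclotomicExtension {p} ℚ K]
    (Q H R : ℤ[X]) (hQm : Q.Monic)
    (hirr : Irreducible (Q.map (Int.castRingHom (ZMod q))))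
    (hdvd : ∑ i ∈ Finset.range p, (X : ℤ[X]) ^ i = Q * H + C (q : ℤ) * R)
    (α β γ s t : 𝓞 K)
    (h1 : α * β = (q : 𝓞 K)) (h2 : α * γ = aeval (zeta_spec p ℚ K).toInteger Q)
    (h3 : α = s * (q : 𝓞 K) + t * aeval (zeta_spec p ℚ K).toInteger Q) :
    ∃ P ∈ primesOver (span {(q : ℤ)}) (𝓞 K), Submodule.IsPrincipal P := by
  refine exists_principal_prime p q Q hirr (hQm.map _) ?_ α β γ s t h1 h2 h3
  rw [← map_cyclotomic_int, cyclotomic_prime, hdvd, Polynomial.map_add, Polynomial.map_mul,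
    Polynomial.map_mul, Polynomial.map_C]
  have : (Int.castRingHom (ZMod q)) (q : ℤ) = 0 := by simp
  rw [this, C_0, zero_mul, add_zero]
  exact dvd_mul_right _ _

/-- Degree one case: `q ≡ 1 mod p`, `r` a root of `Φ_p` modulo `q`. -/
theorem exists_principal_prime_deg_one (p q : ℕ) [hp : Fact p.Prime] [Fact q.Prime]
    [IsCyclotomicExtension {p} ℚ K]
    (r : ℤ) (hr : (q : ℤ) ∣ ∑ i ∈ Finset.range p, r ^ i)
    (α β γ s t : 𝓞 K)
    (h1 : α * β = (q : 𝓞 K)) (h2 : α * γ = (zeta_spec p ℚ K).toInteger - (r : 𝓞 K))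
    (h3 : α = s * (q : 𝓞 K) + t * ((zeta_spec p ℚ K).toInteger - (r : 𝓞 K))) :
    ∃ P ∈ primesOver (span {(q : ℤ)}) (𝓞 K), Submodule.IsPrincipal P := by
  have hmap : (X - C r : ℤ[X]).map (Int.castRingHom (ZMod q)) = X - C (r : ZMod q) := by
    simp
  have hae : aeval (zeta_spec p ℚ K).toInteger (X - C r : ℤ[X]) =
      (zeta_spec p ℚ K).toInteger - (r : 𝓞 K) := by
    simp
  refine exists_principal_prime p q (X - C r) ?_ ?_ ?_ α β γ s t h1 (by rw [hae]; exact h2)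
    (by rw [hae]; exact h3)
  · rw [hmap]; exact irreducible_X_sub_C _
  · rw [hmap]; exact monic_X_sub_C _
  · rw [hmap, dvd_iff_isRoot, IsRoot.def, cyclotomic_prime, eval_finsetSum]
    simp only [eval_pow, eval_X]
    have := (ZMod.intCast_zmod_eq_zero_iff_dvd _ q).mpr hr
    push_cast at this
    exact this

lemma zeta_geom_sum (p : ℕ) [hp : Fact p.Prime] [IsCyclotomicExtension {p} ℚ K] :
    ∑ i ∈ Finset.range p, (zeta_spec p ℚ K).toInteger ^ i = 0 :=
  (zeta_spec p ℚ K).toInteger_isPrimitiveRoot.geom_sum_eq_zero hp.out.one_lt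

/-- a prime power `q ^ f` cannot be divisible by two distinct primes -/
lemma prime_pow_two_primes {q f N : ℕ} (hq : q.Prime) (hN : q ^ f = N) (r₁ r₂ : ℕ)
    (h₁ : r₁.Prime) (h₂ : r₂.Prime) (hne : r₁ ≠ r₂) (hd₁ : r₁ ∣ N) (hd₂ : r₂ ∣ N) : False := by
  subst hN
  have e₁ := (Nat.prime_dvd_prime_iff_eq h₁ hq).mp (h₁.dvd_of_dvd_pow hd₁)
  have e₂ := (Nat.prime_dvd_prime_iff_eq h₂ hq).mp (h₂.dvd_of_dvd_pow hd₂)
  exact hne (e₁.trans e₂.symm)

lemma prime_pow_eq_prime {q f N : ℕ} (hq : q.Prime) (hN : q ^ f = N) (r : ℕ)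
    (h₁ : r.Prime) (hd₁ : r ∣ N) : q = r := by
  subst hN
  exact ((Nat.prime_dvd_prime_iff_eq h₁ hq).mp (h₁.dvd_of_dvd_pow hd₁)).symm

/-- `N = q ^ orderOf q` is `≡ 1 mod p` and `> 1`. -/
lemma pow_orderOf_mod (p q : ℕ) [hp : Fact p.Prime] (hq : q.Prime) (hqp : q ≠ p) :
    q ^ orderOf (q : ZMod p) % p = 1 ∧ 1 < q ^ orderOf (q : ZMod p) := by
  have hne : (q : ZMod p) ≠ 0 := by
    intro h
    rw [ZMod.natCast_eq_zero_iff] at h
    exact hqp ((Nat.prime_dvd_prime_iff_eq hp.out hq).mp h).symm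
  have hpos : 0 < orderOf (q : ZMod p) := by
    rw [orderOf_pos_iff, isOfFinOrder_iff_pow_eq_one]
    exact ⟨p - 1, by have := hp.out.two_le; omega, ZMod.pow_card_sub_one_eq_one hne⟩
  constructor
  · have h := pow_orderOf_eq_one (q : ZMod p)
    have h' : ((q ^ orderOf (q : ZMod p) : ℕ) : ZMod p) = ((1 : ℕ) : ZMod p) := by
      push_cast; exact h
    rw [ZMod.natCast_eq_natCast_iff'] at h'
    rw [h', Nat.mod_eq_of_lt hp.out.one_lt]
  · exact Nat.one_lt_pow hpos.ne' hq.one_lt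

open scoped Real in
/-- Reduction of the PID property of `ℤ[ζ_p]` to finitely many explicit primes. -/
theorem pid_of_cert (p : ℕ) [hp : Fact p.Prime] [IsCyclotomicExtension {p} ℚ K] (B : ℕ)
    (hB : (4 / π) ^ InfinitePlace.nrComplexPlaces K *
      ((Module.finrank ℚ K).factorial / (Module.finrank ℚ K) ^ (Module.finrank ℚ K) *
        √|discr K|) < B + 1)
    (h : ∀ q : ℕ, q.Prime → q ≠ p → q ^ orderOf (q : ZMod p) ≤ B →
      ∃ P ∈ primesOver (span {(q : ℤ)}) (𝓞 K), Submodule.IsPrincipal P) :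
    IsPrincipalIdealRing (𝓞 K) := by
  have : IsGalois ℚ K := isGalois {p} ℚ K
  apply RingOfIntegers.isPrincipalIdealRing_of_isPrincipal_of_lt_or_isPrincipal_of_mem_primesOver_of_mem_Icc
  intro q _ hqp
  have hfl : ⌊(4 / π) ^ InfinitePlace.nrComplexPlaces K *
      ((Module.finrank ℚ K).factorial / (Module.finrank ℚ K) ^ (Module.finrank ℚ K) *
        √|discr K|)⌋₊ ≤ B := by
    have := (Nat.floor_lt' (by omega : B + 1 ≠ 0)).mpr (by push_cast; exact hB)
    omega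
  by_cases hqp' : q = p
  · subst hqp'
    obtain ⟨⟨P, hP1, hP2⟩⟩ := (span {(q : ℤ)}).nonempty_primesOver (S := 𝓞 K)
    refine ⟨P, ⟨hP1, hP2⟩, Or.inr ?_⟩
    rw [eq_span_zeta_sub_one_of_liesOver' q K (zeta_spec q ℚ K) P]
    exact ⟨_, rfl⟩
  · have : Fact q.Prime := ⟨hqp⟩
    by_cases hle : q ^ orderOf (q : ZMod p) ≤ B
    · obtain ⟨P, hP, hPp⟩ := h q hqp hqp' hle
      exact ⟨P, hP, Or.inr hPp⟩
    · obtain ⟨⟨P, hP1, hP2⟩⟩ := (span {(q : ℤ)}).nonempty_primesOver (S := 𝓞 K)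
      refine ⟨P, ⟨hP1, hP2⟩, Or.inl ?_⟩
      rw [inertiaDeg_eq_of_not_dvd q K P (fun hd => hqp' ((Nat.prime_dvd_prime_iff_eq hqp hp.out).mp hd))]
      omega

end Fermat.Agent.Lib.Kummer
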