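import Mathlib
import Fermat.Agent.Lib.Kummer.PIDGeneric

/-!
# `ℤ[ζ_11]` is a PID (Minkowski bound + explicit generators of small primes)
-/

namespace Fermat.Agent.Lib.Kummer

open NumberField Polynomial Ideal IsCyclotomicExtension IsCyclotomicExtension.Rat Module
  InfinitePlace Nat Real cyclotomic

namespace PID11

variable {K : Type} [Field K] [NumberField K]

theorem bound [IsCyclotomicExtension {11} ℚ K] :
    (4 / π) ^ nrComplexPlaces K *
      ((finrank ℚ K).factorial / (finrank ℚ K) ^ (finrank ℚ K) * √|discr K|) < (59 : ℕ) + 1 := by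
  have : Fact (Nat.Prime 11) := ⟨by norm_num⟩
  rw [discr_prime 11 K, IsCyclotomicExtension.finrank (n := 11) K (irreducible_rat (by simp)),
    nrComplexPlaces_eq_totient_div_two 11, totient_prime (by norm_num)]
  have h1 : √|(((-1) ^ ((11 - 1) / 2) * ((11 : ℕ) : ℤ) ^ (11 - 2) : ℤ) : ℝ)| < 48559 := by
    rw [Real.sqrt_lt' (by norm_num)]
    norm_num
  have h2 : 4 / π < 4 / 3.14 := by
    gcongr
    exact pi_gt_d2
  have h3 : (4 / π) ^ ((11 - 1) / 2) < (4 / 3.14) ^ ((11 - 1) / 2) := by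
    gcongr
  have h4 : ((11 - 1 : ℕ).factorial : ℝ) = 3628800 := by
    norm_num [Nat.factorial]
  rw [h4]
  calc _ < (4 / 3.14) ^ ((11 - 1) / 2) *
          ((3628800 : ℝ) / ((11 - 1 : ℕ) : ℝ) ^ (11 - 1) * 48559) := by
        gcongr
    _ < _ := by norm_num

lemma zeta_sum11 [IsCyclotomicExtension {11} ℚ K] :
    1 + (zeta_spec 11 ℚ K).toInteger + (zeta_spec 11 ℚ K).toInteger ^ 2 + (zeta_spec 11 ℚ K).toInteger ^ 3 + (zeta_spec 11 ℚ K).toInteger ^ 4 + (zeta_spec 11 ℚ K).toInteger ^ 5 + (zeta_spec 11 ℚ K).toInteger ^ 6 + (zeta_spec 11 ℚ K).toInteger ^ 7 + (zeta_spec 11 ℚ K).toInteger ^ 8 + (zeta_spec 11 ℚ K).toInteger ^ 9 + (zeta_spec 11 ℚ K).toInteger ^ 10 = 0 := by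
  have : Fact (Nat.Prime 11) := ⟨by norm_num⟩
  have h := zeta_geom_sum (K := K) 11
  simpa [Finset.sum_range_succ] using h

theorem prime11_23 [IsCyclotomicExtension {11} ℚ K] :
    ∃ P ∈ primesOver (span {((23 : ℕ) : ℤ)}) (𝓞 K), Submodule.IsPrincipal P := by
  have : Fact (Nat.Prime 11) := ⟨by norm_num⟩
  have : Fact (Nat.Prime 23) := ⟨by norm_num⟩
  have hΦ := zeta_sum11 (K := K)
  set ζ := (zeta_spec 11 ℚ K).toInteger
  refine exists_principal_prime_deg_one 11 23 (-10) ⟨395256917, by norm_num [Finset.sum_range_succ]⟩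
    (1 - ζ + ζ ^ 3)
    (8 - 2 * ζ - ζ ^ 2 - 8 * ζ ^ 3 - 5 * ζ ^ 4 - 3 * ζ ^ 5 + 6 * ζ ^ 6 + 12 * ζ ^ 7 + 16 * ζ ^ 8 + 11 * ζ ^ 9)
    (3 - ζ - ζ ^ 2 - 4 * ζ ^ 3 - 3 * ζ ^ 4 - 2 * ζ ^ 5 + 2 * ζ ^ 6 + 5 * ζ ^ 7 + 7 * ζ ^ 8 + 5 * ζ ^ 9)
    (-43)
    (99 - 10 * ζ + ζ ^ 2) ?_ ?_ ?_
  · push_cast
    linear_combination (-15 + 5 * ζ + 11 * ζ ^ 2) * hΦ
  · push_cast
    linear_combination (-7 + 2 * ζ + 5 * ζ ^ 2) * hΦ
  · push_cast
    ring

theorem pid [IsCyclotomicExtension {11} ℚ K] : IsPrincipalIdealRing (𝓞 K) := by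
  have : Fact (Nat.Prime 11) := ⟨by norm_num⟩
  refine pid_of_cert 11 59 bound ?_
  intro q hq hqp hle
  obtain ⟨hmod, hgt⟩ := pow_orderOf_mod 11 q hq hqp
  obtain ⟨k, hk⟩ : ∃ k, q ^ orderOf (q : ZMod 11) = 11 * k + 1 :=
    ⟨q ^ orderOf (q : ZMod 11) / 11, by omega⟩
  have hk' : k ≤ 5 := by omega
  clear hmod
  interval_cases k
  · omega
  · exact (prime_pow_two_primes hq hk 2 3 (by norm_num) (by norm_num) (by norm_num) (by norm_num) (by norm_num)).elim
  · obtain rfl := prime_pow_eq_prime hq hk 23 (by norm_num) (by norm_num)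
    exact prime11_23
  · exact (prime_pow_two_primes hq hk 2 17 (by norm_num) (by norm_num) (by norm_num) (by norm_num) (by norm_num)).elim
  · exact (prime_pow_two_primes hq hk 3 5 (by norm_num) (by norm_num) (by norm_num) (by norm_num) (by norm_num)).elim
  · exact (prime_pow_two_primes hq hk 2 7 (by norm_num) (by norm_num) (by norm_num) (by norm_num) (by norm_num)).elim

end PID11

/-- `ℤ[ζ_11]` is a principal ideal domain. -/
theorem pid_eleven' {K : Type} [Field K] [NumberField K] [IsCyclotomicExtension {11} ℚ K] :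
    IsPrincipalIdealRing (𝓞 K) := PID11.pid

theorem pid_eleven : IsPrincipalIdealRing (𝓞 (CyclotomicField 11 ℚ)) :=
  have : IsCyclotomicExtension {11} ℚ (CyclotomicField 11 ℚ) :=
    CyclotomicField.isCyclotomicExtension 11 ℚ
  PID11.pid

end Fermat.Agent.Lib.Kummer
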