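import Mathlib
import Fermat.Agent.Lib.Kummer.PIDGeneric

/-!
# `ℤ[ζ_13]` is a PID (Minkowski bound + explicit generators of small primes)
-/

namespace Fermat.Agent.Lib.Kummer

open NumberField Polynomial Ideal IsCyclotomicExtension IsCyclotomicExtension.Rat Module
  InfinitePlace Nat Real cyclotomic

namespace PID13

variable {K : Type} [Field K] [NumberField K]

theorem bound [IsCyclotomicExtension {13} ℚ K] :
    (4 / π) ^ nrComplexPlaces K *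
      ((finrank ℚ K).factorial / (finrank ℚ K) ^ (finrank ℚ K) * √|discr K|) < (307 : ℕ) + 1 := by
  have : Fact (Nat.Prime 13) := ⟨by norm_num⟩
  rw [discr_prime 13 K, IsCyclotomicExtension.finrank (n := 13) K (irreducible_rat (by simp)),
    nrComplexPlaces_eq_totient_div_two 13, totient_prime (by norm_num)]
  have h1 : √|(((-1) ^ ((13 - 1) / 2) * ((13 : ℕ) : ℤ) ^ (13 - 2) : ℤ) : ℝ)| < 1338716 := by
    rw [Real.sqrt_lt' (by norm_num)]
    norm_num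
  have h2 : 4 / π < 4 / 3.14 := by
    gcongr
    exact pi_gt_d2
  have h3 : (4 / π) ^ ((13 - 1) / 2) < (4 / 3.14) ^ ((13 - 1) / 2) := by
    gcongr
  have h4 : ((13 - 1 : ℕ).factorial : ℝ) = 479001600 := by
    norm_num [Nat.factorial]
  rw [h4]
  calc _ < (4 / 3.14) ^ ((13 - 1) / 2) *
          ((479001600 : ℝ) / ((13 - 1 : ℕ) : ℝ) ^ (13 - 1) * 1338716) := by
        gcongr
    _ < _ := by norm_num

lemma zeta_sum13 [IsCyclotomicExtension {13} ℚ K] :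
    1 + (zeta_spec 13 ℚ K).toInteger + (zeta_spec 13 ℚ K).toInteger ^ 2 + (zeta_spec 13 ℚ K).toInteger ^ 3 + (zeta_spec 13 ℚ K).toInteger ^ 4 + (zeta_spec 13 ℚ K).toInteger ^ 5 + (zeta_spec 13 ℚ K).toInteger ^ 6 + (zeta_spec 13 ℚ K).toInteger ^ 7 + (zeta_spec 13 ℚ K).toInteger ^ 8 + (zeta_spec 13 ℚ K).toInteger ^ 9 + (zeta_spec 13 ℚ K).toInteger ^ 10 + (zeta_spec 13 ℚ K).toInteger ^ 11 + (zeta_spec 13 ℚ K).toInteger ^ 12 = 0 := by
  have : Fact (Nat.Prime 13) := ⟨by norm_num⟩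
  have h := zeta_geom_sum (K := K) 13
  simpa [Finset.sum_range_succ] using h

theorem prime13_53 [IsCyclotomicExtension {13} ℚ K] :
    ∃ P ∈ primesOver (span {((53 : ℕ) : ℤ)}) (𝓞 K), Submodule.IsPrincipal P := by
  have : Fact (Nat.Prime 13) := ⟨by norm_num⟩
  have : Fact (Nat.Prime 53) := ⟨by norm_num⟩
  have hΦ := zeta_sum13 (K := K)
  set ζ := (zeta_spec 13 ℚ K).toInteger
  refine exists_principal_prime_deg_one 13 53 (16) ⟨5664905191661, by norm_num [Finset.sum_range_succ]⟩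
    (1 - ζ + ζ ^ 3)
    (25 + 10 * ζ + 19 * ζ ^ 2 + 3 * ζ ^ 3 + 2 * ζ ^ 4 - 8 * ζ ^ 5 - 2 * ζ ^ 6 + 5 * ζ ^ 7 + 22 * ζ ^ 8 + 33 * ζ ^ 9 + 37 * ζ ^ 10 + 24 * ζ ^ 11)
    (-8 - 3 * ζ - 6 * ζ ^ 2 - ζ ^ 3 - ζ ^ 4 + 2 * ζ ^ 5 - 2 * ζ ^ 7 - 7 * ζ ^ 8 - 10 * ζ ^ 9 - 11 * ζ ^ 10 - 7 * ζ ^ 11)
    (77)
    (255 + 16 * ζ + ζ ^ 2) ?_ ?_ ?_
  · push_cast
    linear_combination (-28 + 13 * ζ + 24 * ζ ^ 2) * hΦ
  · push_cast
    linear_combination (8 - 4 * ζ - 7 * ζ ^ 2) * hΦ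
  · push_cast
    ring

theorem prime13_79 [IsCyclotomicExtension {13} ℚ K] :
    ∃ P ∈ primesOver (span {((79 : ℕ) : ℤ)}) (𝓞 K), Submodule.IsPrincipal P := by
  have : Fact (Nat.Prime 13) := ⟨by norm_num⟩
  have : Fact (Nat.Prime 79) := ⟨by norm_num⟩
  have hΦ := zeta_sum13 (K := K)
  set ζ := (zeta_spec 13 ℚ K).toInteger
  refine exists_principal_prime_deg_one 13 79 (-17) ⟨6965244748879, by norm_num [Finset.sum_range_succ]⟩
    (1 - ζ - ζ ^ 4)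
    (62 + 63 * ζ + 49 * ζ ^ 2 + 8 * ζ ^ 3 + 29 * ζ ^ 4 + 51 * ζ ^ 5 + 59 * ζ ^ 6 + 26 * ζ ^ 7 + 14 * ζ ^ 8 + 24 * ζ ^ 9 + 42 * ζ ^ 10 + 27 * ζ ^ 11)
    (13 + 14 * ζ + 11 * ζ ^ 2 + 2 * ζ ^ 3 + 6 * ζ ^ 4 + 11 * ζ ^ 5 + 13 * ζ ^ 6 + 6 * ζ ^ 7 + 3 * ζ ^ 8 + 5 * ζ ^ 9 + 9 * ζ ^ 10 + 6 * ζ ^ 11)
    (-1057)
    (4912 - 289 * ζ + 17 * ζ ^ 2 - ζ ^ 3) ?_ ?_ ?_
  · push_cast
    linear_combination (-17 + 18 * ζ - 15 * ζ ^ 2 - 27 * ζ ^ 3) * hΦ
  · push_cast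
    linear_combination (-4 + 4 * ζ - 3 * ζ ^ 2 - 6 * ζ ^ 3) * hΦ
  · push_cast
    ring

theorem prime13_131 [IsCyclotomicExtension {13} ℚ K] :
    ∃ P ∈ primesOver (span {((131 : ℕ) : ℤ)}) (𝓞 K), Submodule.IsPrincipal P := by
  have : Fact (Nat.Prime 13) := ⟨by norm_num⟩
  have : Fact (Nat.Prime 131) := ⟨by norm_num⟩
  have hΦ := zeta_sum13 (K := K)
  set ζ := (zeta_spec 13 ℚ K).toInteger
  refine exists_principal_prime_deg_one 13 131 (-51) ⟨2318129266464576071, by norm_num [Finset.sum_range_succ]⟩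
    (1 - ζ - ζ ^ 3)
    (111 + 78 * ζ + 17 * ζ ^ 2 + 67 * ζ ^ 3 + 84 * ζ ^ 4 + 40 * ζ ^ 5 + 46 * ζ ^ 6 + 69 * ζ ^ 7 + 48 * ζ ^ 8 + 33 * ζ ^ 9 + 41 * ζ ^ 10 + 28 * ζ ^ 11)
    (43 + 31 * ζ + 7 * ζ ^ 2 + 26 * ζ ^ 3 + 33 * ζ ^ 4 + 16 * ζ ^ 5 + 18 * ζ ^ 6 + 27 * ζ ^ 7 + 19 * ζ ^ 8 + 13 * ζ ^ 9 + 16 * ζ ^ 10 + 11 * ζ ^ 11)
    (1013)
    (-2602 + 51 * ζ - ζ ^ 2) ?_ ?_ ?_
  · push_cast
    linear_combination (-20 - 13 * ζ - 28 * ζ ^ 2) * hΦ
  · push_cast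
    linear_combination (-8 - 5 * ζ - 11 * ζ ^ 2) * hΦ
  · push_cast
    ring

theorem prime13_157 [IsCyclotomicExtension {13} ℚ K] :
    ∃ P ∈ primesOver (span {((157 : ℕ) : ℤ)}) (𝓞 K), Submodule.IsPrincipal P := by
  have : Fact (Nat.Prime 13) := ⟨by norm_num⟩
  have : Fact (Nat.Prime 157) := ⟨by norm_num⟩
  have hΦ := zeta_sum13 (K := K)
  set ζ := (zeta_spec 13 ℚ K).toInteger
  refine exists_principal_prime_deg_one 13 157 (75) ⟨204486693217927154893, by norm_num [Finset.sum_range_succ]⟩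
    (1 - ζ + ζ ^ 2 + ζ ^ 4)
    (89 + 86 * ζ + 42 * ζ ^ 2 + 77 * ζ ^ 3 + 67 * ζ ^ 4 + 25 * ζ ^ 5 + 37 * ζ ^ 6 + 56 * ζ ^ 7 + 73 * ζ ^ 8 + 113 * ζ ^ 9 + 124 * ζ ^ 10 + 76 * ζ ^ 11)
    (-43 - 41 * ζ - 20 * ζ ^ 2 - 37 * ζ ^ 3 - 32 * ζ ^ 4 - 12 * ζ ^ 5 - 18 * ζ ^ 6 - 27 * ζ ^ 7 - 35 * ζ ^ 8 - 54 * ζ ^ 9 - 59 * ζ ^ 10 - 36 * ζ ^ 11)
    (201568)
    (421949 + 5626 * ζ + 75 * ζ ^ 2 + ζ ^ 3) ?_ ?_ ?_
  · push_cast
    linear_combination (-68 + 65 * ζ + 48 * ζ ^ 2 + 76 * ζ ^ 3) * hΦ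
  · push_cast
    linear_combination (32 - 31 * ζ - 23 * ζ ^ 2 - 36 * ζ ^ 3) * hΦ
  · push_cast
    ring

theorem prime13_3 [IsCyclotomicExtension {13} ℚ K] :
    ∃ P ∈ primesOver (span {((3 : ℕ) : ℤ)}) (𝓞 K), Submodule.IsPrincipal P := by
  have : Fact (Nat.Prime 13) := ⟨by norm_num⟩
  have hΦ := zeta_sum13 (K := K)
  have hae : aeval (zeta_spec 13 ℚ K).toInteger (X ^ 3 - X - 1 : ℤ[X]) =
      (zeta_spec 13 ℚ K).toInteger ^ 3 - (zeta_spec 13 ℚ K).toInteger - 1 := by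
    simp
  have hmap : (X ^ 3 - X - 1 : ℤ[X]).map (Int.castRingHom (ZMod 3)) = X ^ 3 - X - 1 := by
    simp
  have hdeg : (X ^ 3 - X - 1 : (ZMod 3)[X]).natDegree = 3 := by
    compute_degree!
  have hmon : (X ^ 3 - X - 1 : ℤ[X]).Monic := by
    monicity!
  refine exists_principal_prime_int 13 3 (X ^ 3 - X - 1)
    (20 + 15 * X + 11 * X ^ 2 + 8 * X ^ 3 + 6 * X ^ 4 + 4 * X ^ 5 + 3 * X ^ 6 + 2 * X ^ 7 + X ^ 8 + X ^ 9)
    (7 + 12 * X + 9 * X ^ 2) hmon ?_ ?_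
    (1 + (zeta_spec 13 ℚ K).toInteger - (zeta_spec 13 ℚ K).toInteger ^ 3)
    (-1 - (zeta_spec 13 ℚ K).toInteger ^ 2 - (zeta_spec 13 ℚ K).toInteger ^ 3
      - 2 * (zeta_spec 13 ℚ K).toInteger ^ 5 - (zeta_spec 13 ℚ K).toInteger ^ 7
      - 2 * (zeta_spec 13 ℚ K).toInteger ^ 8 + (zeta_spec 13 ℚ K).toInteger ^ 9
      - 3 * (zeta_spec 13 ℚ K).toInteger ^ 10)
    (-1) 0 (-1) ?_ ?_ ?_
  · rw [hmap]
    refine irreducible_of_degree_le_three_of_not_isRoot (by rw [hdeg]; decide) ?_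
    intro x
    simp only [IsRoot.def, eval_sub, eval_pow, eval_X, eval_one]
    revert x
    decide
  · simp only [Finset.sum_range_succ, Finset.sum_range_zero, map_natCast]
    push_cast
    ring
  · push_cast
    linear_combination (-4 + 3 * (zeta_spec 13 ℚ K).toInteger) * hΦ
  · rw [hae]; ring
  · rw [hae]; ring

theorem pid [IsCyclotomicExtension {13} ℚ K] : IsPrincipalIdealRing (𝓞 K) := by
  have : Fact (Nat.Prime 13) := ⟨by norm_num⟩
  refine pid_of_cert 13 307 bound ?_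
  intro q hq hqp hle
  obtain ⟨hmod, hgt⟩ := pow_orderOf_mod 13 q hq hqp
  obtain ⟨k, hk⟩ : ∃ k, q ^ orderOf (q : ZMod 13) = 13 * k + 1 :=
    ⟨q ^ orderOf (q : ZMod 13) / 13, by omega⟩
  have hk' : k ≤ 23 := by omega
  clear hmod
  interval_cases k
  · omega
  · exact (prime_pow_two_primes hq hk 2 7 (by norm_num) (by norm_num) (by norm_num) (by norm_num) (by norm_num)).elim
  · obtain rfl := prime_pow_eq_prime hq hk 3 (by norm_num) (by norm_num)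
    exact prime13_3
  · exact (prime_pow_two_primes hq hk 2 5 (by norm_num) (by norm_num) (by norm_num) (by norm_num) (by norm_num)).elim
  · obtain rfl := prime_pow_eq_prime hq hk 53 (by norm_num) (by norm_num)
    exact prime13_53
  · exact (prime_pow_two_primes hq hk 2 3 (by norm_num) (by norm_num) (by norm_num) (by norm_num) (by norm_num)).elim
  · obtain rfl := prime_pow_eq_prime hq hk 79 (by norm_num) (by norm_num)
    exact prime13_79
  · exact (prime_pow_two_primes hq hk 2 23 (by norm_num) (by norm_num) (by norm_num) (by norm_num) (by norm_num)).elim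
  · exact (prime_pow_two_primes hq hk 3 5 (by norm_num) (by norm_num) (by norm_num) (by norm_num) (by norm_num)).elim
  · exact (prime_pow_two_primes hq hk 2 59 (by norm_num) (by norm_num) (by norm_num) (by norm_num) (by norm_num)).elim
  · obtain rfl := prime_pow_eq_prime hq hk 131 (by norm_num) (by norm_num)
    exact prime13_131
  · exact (prime_pow_two_primes hq hk 2 3 (by norm_num) (by norm_num) (by norm_num) (by norm_num) (by norm_num)).elim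
  · obtain rfl := prime_pow_eq_prime hq hk 157 (by norm_num) (by norm_num)
    exact prime13_157
  · exact (prime_pow_two_primes hq hk 2 5 (by norm_num) (by norm_num) (by norm_num) (by norm_num) (by norm_num)).elim
  · exact (prime_pow_two_primes hq hk 3 61 (by norm_num) (by norm_num) (by norm_num) (by norm_num) (by norm_num)).elim
  · exact (prime_pow_two_primes hq hk 2 7 (by norm_num) (by norm_num) (by norm_num) (by norm_num) (by norm_num)).elim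
  · exact (prime_pow_two_primes hq hk 11 19 (by norm_num) (by norm_num) (by norm_num) (by norm_num) (by norm_num)).elim
  · exact (prime_pow_two_primes hq hk 2 3 (by norm_num) (by norm_num) (by norm_num) (by norm_num) (by norm_num)).elim
  · exact (prime_pow_two_primes hq hk 5 47 (by norm_num) (by norm_num) (by norm_num) (by norm_num) (by norm_num)).elim
  · exact (prime_pow_two_primes hq hk 2 31 (by norm_num) (by norm_num) (by norm_num) (by norm_num) (by norm_num)).elim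
  · exact (prime_pow_two_primes hq hk 3 29 (by norm_num) (by norm_num) (by norm_num) (by norm_num) (by norm_num)).elim
  · exact (prime_pow_two_primes hq hk 2 137 (by norm_num) (by norm_num) (by norm_num) (by norm_num) (by norm_num)).elim
  · exact (prime_pow_two_primes hq hk 7 41 (by norm_num) (by norm_num) (by norm_num) (by norm_num) (by norm_num)).elim
  · exact (prime_pow_two_primes hq hk 2 3 (by norm_num) (by norm_num) (by norm_num) (by norm_num) (by norm_num)).elim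

end PID13

/-- `ℤ[ζ_13]` is a principal ideal domain. -/
theorem pid_thirteen' {K : Type} [Field K] [NumberField K] [IsCyclotomicExtension {13} ℚ K] :
    IsPrincipalIdealRing (𝓞 K) := PID13.pid

theorem pid_thirteen : IsPrincipalIdealRing (𝓞 (CyclotomicField 13 ℚ)) :=
  have : IsCyclotomicExtension {13} ℚ (CyclotomicField 13 ℚ) :=
    CyclotomicField.isCyclotomicExtension 13 ℚ
  PID13.pid

end Fermat.Agent.Lib.Kummer
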