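import Mathlib
import Fermat.Agent.Lib.Kummer.PIDGeneric

/-!
# `ℤ[ζ_7]` is a PID (Minkowski bound + explicit generators of small primes)
-/

namespace Fermat.Agent.Lib.Kummer

open NumberField Polynomial Ideal IsCyclotomicExtension IsCyclotomicExtension.Rat Module
  InfinitePlace Nat Real cyclotomic

namespace PID7

variable {K : Type} [Field K] [NumberField K]

theorem bound [IsCyclotomicExtension {7} ℚ K] :
    (4 / π) ^ nrComplexPlaces K *
      ((finrank ℚ K).factorial / (finrank ℚ K) ^ (finrank ℚ K) * √|discr K|) < (4 : ℕ) + 1 := by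
  have : Fact (Nat.Prime 7) := ⟨by norm_num⟩
  rw [discr_prime 7 K, IsCyclotomicExtension.finrank (n := 7) K (irreducible_rat (by simp)),
    nrComplexPlaces_eq_totient_div_two 7, totient_prime (by norm_num)]
  have h1 : √|(((-1) ^ ((7 - 1) / 2) * ((7 : ℕ) : ℤ) ^ (7 - 2) : ℤ) : ℝ)| < 129.65 := by
    rw [Real.sqrt_lt' (by norm_num)]
    norm_num
  have h2 : 4 / π < 4 / 3.14 := by
    gcongr
    exact pi_gt_d2
  have h3 : (4 / π) ^ ((7 - 1) / 2) < (4 / 3.14) ^ ((7 - 1) / 2) := by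
    gcongr
  have h4 : ((7 - 1 : ℕ).factorial : ℝ) = 720 := by
    norm_num [Nat.factorial]
  rw [h4]
  calc _ < (4 / 3.14) ^ ((7 - 1) / 2) *
          ((720 : ℝ) / ((7 - 1 : ℕ) : ℝ) ^ (7 - 1) * 129.65) := by
        gcongr
    _ < _ := by norm_num

theorem pid [IsCyclotomicExtension {7} ℚ K] : IsPrincipalIdealRing (𝓞 K) := by
  have : Fact (Nat.Prime 7) := ⟨by norm_num⟩
  refine pid_of_cert 7 4 bound ?_
  intro q hq hqp hle
  obtain ⟨hmod, hgt⟩ := pow_orderOf_mod 7 q hq hqp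
  obtain ⟨k, hk⟩ : ∃ k, q ^ orderOf (q : ZMod 7) = 7 * k + 1 :=
    ⟨q ^ orderOf (q : ZMod 7) / 7, by omega⟩
  have hk' : k ≤ 0 := by omega
  clear hmod
  interval_cases k
  · omega

end PID7

/-- `ℤ[ζ_7]` is a principal ideal domain. -/
theorem pid_seven' {K : Type} [Field K] [NumberField K] [IsCyclotomicExtension {7} ℚ K] :
    IsPrincipalIdealRing (𝓞 K) := PID7.pid

theorem pid_seven : IsPrincipalIdealRing (𝓞 (CyclotomicField 7 ℚ)) :=
  have : IsCyclotomicExtension {7} ℚ (CyclotomicField 7 ℚ) :=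
    CyclotomicField.isCyclotomicExtension 7 ℚ
  PID7.pid

end Fermat.Agent.Lib.Kummer
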