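import Fermat.Agent.Lib.Kummer.CaseI
import Fermat.Agent.Lib.Kummer.CaseII
import Fermat.Agent.Lib.Kummer.Cert5
import Fermat.Agent.Lib.Kummer.Cert7
import Fermat.Agent.Lib.Kummer.Cert11
import Fermat.Agent.Lib.Kummer.Cert13
import Fermat.Agent.Lib.Kummer.PID7
import Fermat.Agent.Lib.Kummer.PID11
import Fermat.Agent.Lib.Kummer.PID13

/-!
# Fermat's Last Theorem for the exponents 5, 7, 11, 13 (coprime integer form)
-/

namespace Fermat.Agent.Lib.Kummer

open NumberField

theorem flt_five {a b c : ℤ} (hprod : a * b * c ≠ 0) (hgcd : IsCoprime a b) :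
    a ^ 5 + b ^ 5 ≠ c ^ 5 := by
  by_cases h : (5 : ℤ) ∣ a * b * c
  · have : Fact (Nat.Prime 5) := ⟨by norm_num⟩
    have : IsCyclotomicExtension {5} ℚ (CyclotomicField 5 ℚ) :=
      CyclotomicField.isCyclotomicExtension 5 ℚ
    have : IsPrincipalIdealRing (𝓞 (CyclotomicField 5 ℚ)) :=
      IsCyclotomicExtension.Rat.five_pid (CyclotomicField 5 ℚ)
    exact caseII (p := 5) (K := CyclotomicField 5 ℚ) (by norm_num)
      (fun u hu => kummer_five u hu) hprod hgcd (by exact_mod_cast h)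
  · exact caseI_five a b c h

theorem flt_seven {a b c : ℤ} (hprod : a * b * c ≠ 0) (hgcd : IsCoprime a b) :
    a ^ 7 + b ^ 7 ≠ c ^ 7 := by
  by_cases h : (7 : ℤ) ∣ a * b * c
  · have : Fact (Nat.Prime 7) := ⟨by norm_num⟩
    have : IsCyclotomicExtension {7} ℚ (CyclotomicField 7 ℚ) :=
      CyclotomicField.isCyclotomicExtension 7 ℚ
    have : IsPrincipalIdealRing (𝓞 (CyclotomicField 7 ℚ)) := pid_seven'
    exact caseII (p := 7) (K := CyclotomicField 7 ℚ) (by norm_num)
      (fun u hu => kummer_seven u hu) hprod hgcd (by exact_mod_cast h)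
  · exact caseI_seven a b c h

theorem flt_eleven {a b c : ℤ} (hprod : a * b * c ≠ 0) (hgcd : IsCoprime a b) :
    a ^ 11 + b ^ 11 ≠ c ^ 11 := by
  by_cases h : (11 : ℤ) ∣ a * b * c
  · have : Fact (Nat.Prime 11) := ⟨by norm_num⟩
    have : IsCyclotomicExtension {11} ℚ (CyclotomicField 11 ℚ) :=
      CyclotomicField.isCyclotomicExtension 11 ℚ
    have : IsPrincipalIdealRing (𝓞 (CyclotomicField 11 ℚ)) := pid_eleven'
    exact caseII (p := 11) (K := CyclotomicField 11 ℚ) (by norm_num)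
      (fun u hu => kummer_eleven u hu) hprod hgcd (by exact_mod_cast h)
  · exact caseI_eleven a b c h

theorem flt_thirteen {a b c : ℤ} (hprod : a * b * c ≠ 0) (hgcd : IsCoprime a b) :
    a ^ 13 + b ^ 13 ≠ c ^ 13 := by
  by_cases h : (13 : ℤ) ∣ a * b * c
  · have : Fact (Nat.Prime 13) := ⟨by norm_num⟩
    have : IsCyclotomicExtension {13} ℚ (CyclotomicField 13 ℚ) :=
      CyclotomicField.isCyclotomicExtension 13 ℚ
    have : IsPrincipalIdealRing (𝓞 (CyclotomicField 13 ℚ)) := pid_thirteen'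
    exact caseII (p := 13) (K := CyclotomicField 13 ℚ) (by norm_num)
      (fun u hu => kummer_thirteen u hu) hprod hgcd (by exact_mod_cast h)
  · exact caseI_thirteen a b c h

end Fermat.Agent.Lib.Kummer
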